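import Fermat.Agent.RelPic.Complex.Equiv
import Fermat.Agent.RelPic.Contracts

/-!
# Existence and flatness of base changes of triples

Every triple has a base change along every map of algebras.  The overlap module and the two lattices
of a base change are tensor products; so are the sections when `H1 = 0`.
-/

set_option autoImplicit false

noncomputable section

universe u

open scoped TensorProduct

-- dead ends of the instance search in this file
attribute [-instance] NormedAlgebra.toAlgebra LieRinehartAlgebra.toIsScalarTower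

namespace Fermat.Agent.RelPic

section Abstract

/-- The span of the image of a framed invertible lattice in the extended module is invertible. -/
theorem invertible_span {R R' A A' M : Type u} [CommRing R] [CommRing R'] [CommRing A]
    [CommRing A'] [Algebra R A] [Algebra R' A'] [Algebra A A'] [AddCommGroup M] [Module A M]
    {B : Subalgebra R A} {B' : Subalgebra R' A'} (hB : ∀ b ∈ B, algebraMap A A' b ∈ B')
    {p : Submodule B M} [Module.Invertible B p] {N : ℕ} {g : Fin N → M}
    {S : M →ₗ[A] Fin N → A} (hg : ∀ i, g i ∈ p) (hsum : ∀ v, ∑ i, S v i • g i = v)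
    (hS : ∀ v ∈ p, ∀ i, S v i ∈ B) :
    Module.Invertible B'
      (Submodule.span B' ((fun v => (1 : A') ⊗ₜ[A] v) '' (p : Set M))) := by
  set p' := Submodule.span B' ((fun v => (1 : A') ⊗ₜ[A] v) '' (p : Set M))
  let : Algebra B B' := (((algebraMap A A').comp B.val.toRingHom).codRestrict B'
    fun b => hB b b.2).toAlgebra
  let : AddCommMonoid p' := p'.addCommMonoid
  let mB' : Module B' p' := p'.module
  let : MulAction B' p' := mB'.toDistribMulAction.toMulAction
  let : SMul B' p' := mB'.toSMul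
  let mB : Module B p' := Module.compHom p' (algebraMap B B')
  let : SMul B p' := mB.toSMul
  have : IsScalarTower B B' p' := IsScalarTower.of_algebraMap_smul fun _ _ => rfl
  let f : p →ₗ[B] p' :=
    { toFun := fun v => ⟨1 ⊗ₜ (v : M), Submodule.subset_span ⟨v, v.2, rfl⟩⟩
      map_add' := fun v w => Subtype.ext (TensorProduct.tmul_add _ _ _)
      map_smul' := fun b v => Subtype.ext (by
        show (1 : A') ⊗ₜ[A] ((b : A) • (v : M)) = algebraMap A A' b • ((1 : A') ⊗ₜ[A] (v : M))
        rw [TensorProduct.tmul_smul, algebraMap_smul]) }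
  let μ := f.liftBaseChange B'
  let S₁ : M →ₗ[A] Fin N → A' :=
    LinearMap.pi fun i => (Algebra.linearMap A A') ∘ₗ LinearMap.proj i ∘ₗ S
  let ψ : A' ⊗[A] M →ₗ[A'] Fin N → A' := S₁.liftBaseChange A'
  have hψ : ∀ (c : A') (v : M) (i : Fin N), ψ (c ⊗ₜ v) i = c * algebraMap A A' (S v i) :=
    fun c v i => by simp [ψ, S₁]
  have hψB : ∀ w ∈ p', ∀ i, ψ w i ∈ B' := fun w hw i => by
    induction hw using Submodule.span_induction with
    | mem x hx =>
      obtain ⟨v, hv, rfl⟩ := hx
      rw [hψ, one_mul]; exact hB _ (hS v hv i)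
    | zero => simp
    | add x y _ _ hx hy => rw [map_add, Pi.add_apply]; exact add_mem hx hy
    | smul b x _ hx =>
      rw [Subalgebra.smul_def, map_smul, Pi.smul_apply, smul_eq_mul]; exact mul_mem b.2 hx
  refine Module.Invertible.congr (LinearEquiv.ofBijective μ ⟨?_, fun w => ?_⟩)
  · refine Function.LeftInverse.injective
      (g := fun w : p' => ∑ i, (⟨_, hψB w w.2 i⟩ : B') ⊗ₜ[B] (⟨g i, hg i⟩ : p)) ?_
    intro t
    induction t using TensorProduct.induction_on with
    | zero =>
      refine Finset.sum_eq_zero fun i _ => ?_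
      rw [show (⟨ψ (μ 0 : p') i, hψB _ (μ 0).2 i⟩ : B') = 0 from Subtype.ext (by simp)]
      exact TensorProduct.zero_tmul _ _
    | tmul c v =>
      have e : ∀ i, (⟨ψ (μ (c ⊗ₜ v) : p') i, hψB _ (μ (c ⊗ₜ v)).2 i⟩ : B') =
          (⟨S v i, hS v v.2 i⟩ : B) • c := fun i => Subtype.ext (by
        show ψ ((c : A') • ((1 : A') ⊗ₜ[A] (v : M))) i = algebraMap A A' (S v i) * (c : A')
        rw [map_smul, Pi.smul_apply, hψ, one_mul, smul_eq_mul, mul_comm])
      simp only [e, TensorProduct.smul_tmul, ← TensorProduct.tmul_sum]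
      congr 1
      refine Subtype.ext ?_
      simp only [Submodule.coe_sum, Submodule.coe_smul, Subalgebra.smul_def]
      exact hsum v
    | add x y hx hy =>
      conv_rhs => rw [← hx, ← hy]
      simp only [← Finset.sum_add_distrib, ← TensorProduct.add_tmul]
      exact Finset.sum_congr rfl fun i _ => congrArg (· ⊗ₜ[B] (⟨g i, hg i⟩ : p))
        (Subtype.ext (by simp))
  · obtain ⟨w, hw⟩ := w
    induction hw using Submodule.span_induction with
    | mem x hx =>
      obtain ⟨v, hv, rfl⟩ := hx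
      exact ⟨1 ⊗ₜ ⟨v, hv⟩, Subtype.ext (by simp [μ, f])⟩
    | zero => exact ⟨0, Subtype.ext (by simp)⟩
    | add x y _ _ hx hy =>
      obtain ⟨a, ha⟩ := hx
      obtain ⟨b, hb⟩ := hy
      exact ⟨a + b, by rw [map_add, ha, hb]; rfl⟩
    | smul b x _ hx =>
      obtain ⟨a, ha⟩ := hx
      exact ⟨b • a, by rw [map_smul, ha]; rfl⟩

/-- The tensor with one is semilinear. -/
private theorem one_tmul_smul {A A' M : Type u} [CommRing A] [CommRing A'] [Algebra A A']
    [AddCommGroup M] [Module A M] (a : A) (v : M) :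
    (1 : A') ⊗ₜ[A] (a • v) = algebraMap A A' a • ((1 : A') ⊗ₜ[A] v) := by
  rw [TensorProduct.tmul_smul, algebraMap_smul]

/-- A power of `X'` moves any element of the extended module into the extended lattice. -/
private theorem exists_pow_smul_mem_span {R R' A A' M : Type u} [CommRing R] [CommRing R']
    [CommRing A] [CommRing A'] [Algebra R A] [Algebra R' A'] [Algebra A A'] [AddCommGroup M]
    [Module A M] {B : Subalgebra R A} {B' : Subalgebra R' A'} {p : Submodule B M} {X : A} {X' : A'}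
    (hX : algebraMap A A' X = X') (hX' : X' ∈ B') (hA : ∀ a, ∃ n : ℕ, X' ^ n * a ∈ B')
    (hM : ∀ v, ∃ n : ℕ, X ^ n • v ∈ p) (t : A' ⊗[A] M) :
    ∃ n : ℕ, X' ^ n • t ∈ Submodule.span B' ((fun v => (1 : A') ⊗ₜ[A] v) '' (p : Set M)) := by
  set p' := Submodule.span B' ((fun v => (1 : A') ⊗ₜ[A] v) '' (p : Set M))
  induction t using TensorProduct.induction_on with
  | zero => exact ⟨0, by simp⟩
  | tmul a v =>
    obtain ⟨n, hn⟩ := hA a
    obtain ⟨l, hl⟩ := hM v
    refine ⟨n + l, ?_⟩
    have h := p'.smul_mem (⟨_, hn⟩ : B') (Submodule.subset_span ⟨_, hl, rfl⟩)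
    have e : X' ^ (n + l) • (a ⊗ₜ[A] v) = (X' ^ n * a) • ((1 : A') ⊗ₜ[A] (X ^ l • v)) := by
      rw [one_tmul_smul, map_pow, hX, TensorProduct.smul_tmul', TensorProduct.smul_tmul',
        TensorProduct.smul_tmul', smul_eq_mul, smul_eq_mul, smul_eq_mul, pow_add]
      congr 1
      ring
    rw [e]; exact h
  | add x y hx hy =>
    obtain ⟨n, hn⟩ := hx
    obtain ⟨l, hl⟩ := hy
    refine ⟨n + l, ?_⟩
    rw [smul_add]
    refine add_mem ?_ ?_
    · rw [add_comm, pow_add, mul_smul]
      exact p'.smul_mem (⟨_, pow_mem hX' l⟩ : B') hn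
    · rw [pow_add, mul_smul]
      exact p'.smul_mem (⟨_, pow_mem hX' n⟩ : B') hl

end Abstract

section Retract

variable {R R' M M' : Type*} [CommRing R] [CommRing R'] [Algebra R R'] [AddCommGroup M]
  [Module R M] [AddCommGroup M'] [Module R M'] [Module R' M'] [IsScalarTower R R' M']
  {f : M →ₗ[R] M'}

/-- The span of a direct summand in a base change is the base change of the summand. -/
theorem exists_equiv_span (hf : IsBaseChange R' f) (S : Submodule R M) (π : M →ₗ[R] S)
    (hπ : ∀ v : S, π v = v) :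
    ∃ e : R' ⊗[R] S ≃ₗ[R'] Submodule.span R' (f '' (S : Set M)),
      ∀ v : S, (e (1 ⊗ₜ v) : M') = f v := by
  let g := (f ∘ₗ S.subtype).liftBaseChange R'
  have hinj : Function.Injective g := by
    have h1 : g = hf.equiv.toLinearMap ∘ₗ S.subtype.baseChange R' :=
      TensorProduct.AlgebraTensorModule.ext fun r v => by simp [g, hf.equiv_tmul]
    have h2 : π.baseChange R' ∘ₗ S.subtype.baseChange R' = LinearMap.id := by
      rw [← LinearMap.baseChange_comp,
        show π ∘ₗ S.subtype = LinearMap.id from LinearMap.ext hπ, LinearMap.baseChange_id]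
    rw [h1]
    exact hf.equiv.injective.comp
      (Function.LeftInverse.injective (g := π.baseChange R') (LinearMap.congr_fun h2))
  have hrange : LinearMap.range g = Submodule.span R' (f '' (S : Set M)) := by
    rw [LinearMap.range_liftBaseChange, LinearMap.range_comp, Submodule.range_subtype]
    rfl
  refine ⟨(LinearEquiv.ofInjective g hinj).trans (LinearEquiv.ofEq _ _ hrange), fun v => ?_⟩
  show g (1 ⊗ₜ v) = f v
  simp [g]

/-- A linear map onto a complement of `Q` inside `P`. -/
theorem exists_complement [Module.Projective R M] {P Q : Submodule R M} (hsup : P ⊔ Q = ⊤)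
    (ρ : M →ₗ[R] M) (hρQ : ∀ v, ρ v ∈ Q) (hρ : ∀ v ∈ Q, ρ v = v) :
    ∃ L : M →ₗ[R] M, (∀ v, L v ∈ P) ∧ (∀ v, v - L v ∈ Q) ∧ ∀ v ∈ Q, L v = 0 := by
  have : Module.Projective R (M ⧸ Q) := Module.Projective.of_split
    (Q.liftQ (LinearMap.id - ρ) fun v hv => by simp [hρ v hv]) Q.mkQ
      (Submodule.linearMap_qext _ (LinearMap.ext fun v => by simp [hρQ v]))
  have hs : Function.Surjective (Q.mkQ ∘ₗ P.subtype) := fun x => by
    obtain ⟨v, rfl⟩ := Q.mkQ_surjective x
    obtain ⟨a, ha, b, hb, rfl⟩ := Submodule.mem_sup.mp (hsup ▸ Submodule.mem_top (x := v))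
    exact ⟨⟨a, ha⟩, (Submodule.Quotient.eq _).mpr (by simpa using Q.neg_mem hb)⟩
  obtain ⟨σ, hσ⟩ := Module.projective_lifting_property _ LinearMap.id hs
  refine ⟨P.subtype ∘ₗ σ ∘ₗ Q.mkQ, fun v => (σ _).2, fun v => ?_, fun v hv => ?_⟩
  · exact (Submodule.Quotient.eq _).mp (LinearMap.congr_fun hσ (Q.mkQ v)).symm
  · simp [(Submodule.Quotient.mk_eq_zero Q).mpr hv]

/-- Given a complement of `P ⊓ Q` in `P` along `Q`, the common sections commute with base
change. -/
theorem exists_equiv_inf_of_complement (hf : IsBaseChange R' f) {P Q : Submodule R M}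
    (ρP L : M →ₗ[R] M) (hP : ∀ v, ρP v ∈ P) (hP' : ∀ v ∈ P, ρP v = v)
    (hLP : ∀ v, L v ∈ P) (hLQ : ∀ v ∈ P, v - L v ∈ Q) (hL : ∀ v ∈ Q, L v = 0) :
    ∃ e : R' ⊗[R] ↥(P ⊓ Q) ≃ₗ[R']
        ↥(Submodule.span R' (f '' (P : Set M)) ⊓ Submodule.span R' (f '' (Q : Set M))),
      ∀ v, (e (1 ⊗ₜ v) : M') = f v := by
  let π : M →ₗ[R] ↥(P ⊓ Q) := ((LinearMap.id - L) ∘ₗ ρP).codRestrict _ fun v =>
    ⟨P.sub_mem (hP v) (hLP _), hLQ _ (hP v)⟩
  have hπ : ∀ v : ↥(P ⊓ Q), π v = v := fun v => Subtype.ext (show ρP v - L (ρP v) = v by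
    rw [hP' _ v.2.1, hL _ v.2.2, sub_zero])
  obtain ⟨e, he⟩ := exists_equiv_span hf (P ⊓ Q) π hπ
  refine ⟨e.trans (LinearEquiv.ofEq _ _ ?_), fun v => he v⟩
  refine le_antisymm (le_inf (Submodule.span_mono (Set.image_mono fun v hv => hv.1))
    (Submodule.span_mono (Set.image_mono fun v hv => hv.2))) fun x hx => ?_
  let L' : M' →ₗ[R'] M' := hf.lift (f ∘ₗ L)
  have hL' : ∀ v, L' (f v) = f (L v) := fun v => hf.lift_eq (f ∘ₗ L) v
  have h0 : L' x = 0 := by
    have : Submodule.span R' (f '' (Q : Set M)) ≤ LinearMap.ker L' :=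
      Submodule.span_le.mpr (by rintro _ ⟨v, hv, rfl⟩; simp [hL', hL v hv])
    exact this hx.2
  have h1 : x - L' x ∈ Submodule.span R' (f '' ((P ⊓ Q : Submodule R M) : Set M)) := by
    have : Submodule.span R' (f '' (P : Set M)) ≤
        (Submodule.span R' (f '' ((P ⊓ Q : Submodule R M) : Set M))).comap (LinearMap.id - L') :=
      Submodule.span_le.mpr (by
        rintro _ ⟨v, hv, rfl⟩
        exact Submodule.subset_span ⟨v - L v, ⟨P.sub_mem hv (hLP v), hLQ v hv⟩, by simp [hL']⟩)
    exact this hx.1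
  rwa [h0, sub_zero] at h1

/-- When `P + Q` is everything, the common sections commute with base change. -/
theorem exists_equiv_inf [Module.Projective R M] (hf : IsBaseChange R' f) {P Q : Submodule R M}
    (hsup : P ⊔ Q = ⊤) (ρP ρQ : M →ₗ[R] M) (hP : ∀ v, ρP v ∈ P) (hP' : ∀ v ∈ P, ρP v = v)
    (hQ : ∀ v, ρQ v ∈ Q) (hQ' : ∀ v ∈ Q, ρQ v = v) :
    ∃ e : R' ⊗[R] ↥(P ⊓ Q) ≃ₗ[R']
        ↥(Submodule.span R' (f '' (P : Set M)) ⊓ Submodule.span R' (f '' (Q : Set M))),
      ∀ v, (e (1 ⊗ₜ v) : M') = f v := by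
  obtain ⟨L, hLP, hLQ, hL⟩ := exists_complement hsup ρQ hQ hQ'
  exact exists_equiv_inf_of_complement hf ρP L hP hP' hLP (fun v _ => hLQ v) hL

/-- Quotients commute with base change. -/
theorem exists_equiv_quotient (hf : IsBaseChange R' f) (W : Submodule R M) :
    ∃ e : R' ⊗[R] (M ⧸ W) ≃ₗ[R'] M' ⧸ Submodule.span R' (f '' (W : Set M)),
      ∀ v, e (1 ⊗ₜ W.mkQ v) = Submodule.Quotient.mk (f v) := by
  set W' := Submodule.span R' (f '' (W : Set M))
  let a : R' ⊗[R] (M ⧸ W) →ₗ[R'] M' ⧸ W' := (W.liftQ ((W'.mkQ.restrictScalars R) ∘ₗ f)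
    fun v hv => (Submodule.Quotient.mk_eq_zero W').mpr
      (Submodule.subset_span ⟨v, hv, rfl⟩)).liftBaseChange R'
  let b₀ : M' →ₗ[R'] R' ⊗[R] (M ⧸ W) := hf.lift ((TensorProduct.mk R R' (M ⧸ W) 1) ∘ₗ W.mkQ)
  have hb₀ : ∀ v, b₀ (f v) = 1 ⊗ₜ W.mkQ v := fun v => hf.lift_eq _ v
  let b := W'.liftQ b₀ (Submodule.span_le.mpr (by
    rintro _ ⟨v, hv, rfl⟩
    show b₀ (f v) = 0
    rw [hb₀, show W.mkQ v = 0 from (Submodule.Quotient.mk_eq_zero W).mpr hv,
      TensorProduct.tmul_zero]))
  have ha : ∀ r v, a (r ⊗ₜ W.mkQ v) = r • Submodule.Quotient.mk (f v) := fun r v =>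
    LinearMap.liftBaseChange_tmul (A := R') _ _ _
  have h1 : b ∘ₗ a = LinearMap.id := TensorProduct.AlgebraTensorModule.ext fun r x => by
    obtain ⟨v, rfl⟩ := W.mkQ_surjective x
    rw [LinearMap.comp_apply, ha, map_smul, LinearMap.id_apply]
    show r • b₀ (f v) = _
    rw [hb₀, TensorProduct.smul_tmul', smul_eq_mul, mul_one]
  have h2 : a ∘ₗ b = LinearMap.id := Submodule.linearMap_qext _ (hf.algHom_ext _ _ fun v => by
    show a (b₀ (f v)) = Submodule.Quotient.mk (f v)
    rw [hb₀, ha, one_smul])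
  exact ⟨LinearEquiv.ofLinearMap a b h2 h1, fun v => (ha 1 v).trans (one_smul R' _)⟩

end Retract

namespace Model

variable {k : Type u} [Field k] (C : Model k)

/-- Base changes of triples exist. -/
theorem hasBaseChange : C.HasBaseChange := by
  intro R R' _ _ _ _ φ T
  let : Algebra (C.A R) (C.A R') := (C.mapA φ).toRingHom.toAlgebra
  let p' : Submodule (C.Cp R') (C.A R' ⊗[C.A R] T.M) :=
    Submodule.span _ ((fun v => (1 : C.A R') ⊗ₜ[C.A R] v) '' (T.p : Set T.M))
  let m' : Submodule (C.Cm R') (C.A R' ⊗[C.A R] T.M) :=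
    Submodule.span _ ((fun v => (1 : C.A R') ⊗ₜ[C.A R] v) '' (T.m : Set T.M))
  have hexp : ∀ (t : C.A R' ⊗[C.A R] T.M), ∃ n : ℕ, C.X₀ R' ^ n • t ∈ p' :=
    exists_pow_smul_mem_span (C.mapA_X₀ φ) (C.X₀_mem_Cp R') (C.exists_pow_mul_mem_Cp R')
      T.exists_pow_smul_mem_p
  have hexm : ∀ (t : C.A R' ⊗[C.A R] T.M), ∃ n : ℕ, C.Y₀ R' ^ n • t ∈ m' :=
    exists_pow_smul_mem_span (C.mapA_Y₀ φ) (C.Y₀_mem_Cm R') (C.exists_pow_mul_mem_Cm R')
      T.exists_pow_smul_mem_m
  let : Module (C.Cp R') p' := p'.module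
  have hinvp : Module.Invertible (C.Cp R') p' := by
    obtain ⟨N, g, S, hg, hsum, hS⟩ := T.exists_frame
    have := T.inv_p
    exact invertible_span (fun b hb => C.mapA_mem_Cp φ hb) hg hsum hS
  let : Module (C.Cm R') m' := m'.module
  have hinvm : Module.Invertible (C.Cm R') m' := by
    obtain ⟨N, g, S, hg, hsum, hS⟩ := T.swap.exists_frame
    have := T.inv_m
    exact invertible_span (fun b hb => C.mapA_mem_Cm φ hb) hg hsum hS
  let T' : Triple C R' :=
    { M := C.A R' ⊗[C.A R] T.M
      p := p'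
      m := m'
      inv_p := hinvp
      inv_m := hinvm
      exists_pow_smul_mem_p := hexp
      exists_pow_smul_mem_m := hexm }
  let : Module (C.A R') T'.M := T'.instModA
  let : Module R' T'.M := T'.instModR
  let F : T.M →+ T'.M :=
    { toFun := fun v => (1 : C.A R') ⊗ₜ[C.A R] v
      map_zero' := TensorProduct.tmul_zero _ _
      map_add' := TensorProduct.tmul_add _ }
  have hF : ∀ (a : C.A R) v, F (a • v) = C.mapA φ a • F v := one_tmul_smul
  have key : ∀ (r : R') (a : C.A₀) (v : T.M),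
      (r ⊗ₜ[k] a : C.A R') • F v = r • F (((1 : R) ⊗ₜ[k] a : C.A R) • v) := fun r a v => by
    rw [hF, T'.smul_R_eq]
    refine Eq.trans ?_ (mul_smul (algebraMap R' (C.A R') r) _ (F v))
    congr 1
    rw [C.mapA_tmul, map_one, Algebra.TensorProduct.algebraMap_apply,
      Algebra.TensorProduct.tmul_mul_tmul, mul_one, one_mul]
    rfl
  refine ⟨T', ⟨{
    toFun := F
    map_smul := hF
    map_p := fun v hv => Submodule.subset_span ⟨v, hv, rfl⟩
    map_m := fun v hv => Submodule.subset_span ⟨v, hv, rfl⟩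
    span_p := ?_
    span_m := ?_ }⟩⟩
  · intro w hw
    refine Submodule.span_induction
      (p := fun w _ => w ∈ Submodule.span R' (F '' (T.p : Set T.M))) ?_ (zero_mem _)
      (fun _ _ _ _ => add_mem) ?_ hw
    · rintro _ ⟨v, hv, rfl⟩; exact Submodule.subset_span ⟨v, hv, rfl⟩
    · intro c x _ hx
      refine Submodule.span_induction
        (p := fun x _ => (c : C.A R') • x ∈ Submodule.span R' (F '' (T.p : Set T.M))) ?_ ?_ ?_ ?_ hx
      · rintro _ ⟨v, hv, rfl⟩
        refine C.Cp_induction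
          (P := fun c => c • F v ∈ Submodule.span R' (F '' (T.p : Set T.M))) c.2 (fun r a ha => ?_)
          fun _ _ h h' => by rw [add_smul]; exact add_mem h h'
        rw [key]
        exact Submodule.smul_mem _ _
          (Submodule.subset_span ⟨_, T.smul_mem_p (C.tmul_mem_Cp R 1 ha) hv, rfl⟩)
      · rw [smul_zero]; exact zero_mem _
      · intro y z _ _ hy hz; rw [smul_add]; exact add_mem hy hz
      · intro r y _ hy; rw [smul_comm]; exact Submodule.smul_mem _ _ hy
  · intro w hw
    refine Submodule.span_induction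
      (p := fun w _ => w ∈ Submodule.span R' (F '' (T.m : Set T.M))) ?_ (zero_mem _)
      (fun _ _ _ _ => add_mem) ?_ hw
    · rintro _ ⟨v, hv, rfl⟩; exact Submodule.subset_span ⟨v, hv, rfl⟩
    · intro c x _ hx
      refine Submodule.span_induction
        (p := fun x _ => (c : C.A R') • x ∈ Submodule.span R' (F '' (T.m : Set T.M))) ?_ ?_ ?_ ?_ hx
      · rintro _ ⟨v, hv, rfl⟩
        refine C.swap.Cp_induction
          (P := fun c => c • F v ∈ Submodule.span R' (F '' (T.m : Set T.M))) c.2 (fun r a ha => ?_)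
          fun _ _ h h' => by rw [add_smul]; exact add_mem h h'
        rw [key]
        exact Submodule.smul_mem _ _
          (Submodule.subset_span ⟨_, T.smul_mem_m (C.tmul_mem_Cm R 1 ha) hv, rfl⟩)
      · rw [smul_zero]; exact zero_mem _
      · intro y z _ _ hy hz; rw [smul_add]; exact add_mem hy hz
      · intro r y _ hy; rw [smul_comm]; exact Submodule.smul_mem _ _ hy

end Model

namespace Triple.BC

variable {k : Type u} [Field k] {C : Model k} {R R' : Type u} [CommRing R] [Algebra k R]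
  [CommRing R'] [Algebra k R'] [Algebra R R'] [IsScalarTower k R R'] {T : Triple C R}
  {T' : Triple C R'}

/-- The linear map of a base change. -/
def linearMap (F : BC (IsScalarTower.toAlgHom k R R') T T') [Module R T'.M]
    [IsScalarTower R R' T'.M] : T.M →ₗ[R] T'.M where
  toFun := F.toFun
  map_add' := _root_.map_add F.toFun
  map_smul' r v := (F.map_smul_base r v).trans (algebraMap_smul R' r (F.toFun v))

/-- The overlap module of a base change is the tensor product. -/
theorem isBaseChange (F : BC (IsScalarTower.toAlgHom k R R') T T') [Module R T'.M]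
    [IsScalarTower R R' T'.M] : IsBaseChange R' F.linearMap := by
  obtain ⟨N, g, S, hg, hsum, hS⟩ := T.exists_frame
  let φ := IsScalarTower.toAlgHom k R R'
  let g₂ : T.M →+ (Fin N → C.A R') :=
    { toFun := fun v i => C.mapA φ (S v i)
      map_zero' := funext fun i => by
        show C.mapA φ (S 0 i) = 0
        rw [S.map_zero]
        exact (C.mapA φ).toRingHom.map_zero
      map_add' := fun v w => funext fun i => by
        show C.mapA φ (S (v + w) i) = C.mapA φ (S v i) + C.mapA φ (S w i)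
        rw [S.map_add]
        exact (C.mapA φ).toRingHom.map_add _ _ }
  obtain ⟨e, he⟩ := F.exists_lift g₂ fun a v => funext fun i => by
    show C.mapA φ (S (a • v) i) = C.mapA φ a * C.mapA φ (S v i)
    rw [S.map_smul]
    exact (C.mapA φ).toRingHom.map_mul a (S v i)
  let c := TensorProduct.AlgebraTensorModule.cancelBaseChange k R R' R' C.A₀
  have hc : ∀ a : C.A R, c.symm (C.mapA φ a) = (1 : R') ⊗ₜ[R] a := fun a => by
    induction a using TensorProduct.induction_on with
    | zero =>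
      exact ((congrArg c.symm (C.mapA φ).toRingHom.map_zero).trans c.symm.map_zero).trans
        (TensorProduct.tmul_zero _ _).symm
    | tmul r a =>
      show c.symm (φ r ⊗ₜ[k] a) = _
      rw [TensorProduct.AlgebraTensorModule.cancelBaseChange_symm_tmul,
        show φ r = r • (1 : R') from Algebra.algebraMap_eq_smul_one r, TensorProduct.smul_tmul,
        TensorProduct.smul_tmul', smul_eq_mul, mul_one]
    | add x y hx hy =>
      exact ((congrArg c.symm ((C.mapA φ).toRingHom.map_add x y)).trans (c.symm.map_add _ _)).trans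
        ((congrArg₂ (· + ·) hx hy).trans (TensorProduct.tmul_add _ _ _).symm)
  let κ : Fin N → (C.A R' →ₗ[R'] R' ⊗[R] T.M) := fun i =>
    ((LinearMap.toSpanSingleton (C.A R) T.M (g i)).restrictScalars R).baseChange R' ∘ₗ
      c.symm.toLinearMap
  let Φ : T'.M →ₗ[R'] R' ⊗[R] T.M :=
    ∑ i, κ i ∘ₗ LinearMap.proj i ∘ₗ e.restrictScalars R'
  let μ := F.linearMap.liftBaseChange R'
  have hleft : Φ ∘ₗ μ = LinearMap.id := TensorProduct.AlgebraTensorModule.ext fun r v => by
    have h1 : μ (r ⊗ₜ v) = r • F.toFun v := by simp [μ, linearMap]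
    have h2 : ∀ i, κ i (e (F.toFun v) i) = (1 : R') ⊗ₜ[R] (S v i • g i) := fun i => by
      rw [he]
      show ((LinearMap.toSpanSingleton (C.A R) T.M (g i)).restrictScalars R).baseChange R'
        (c.symm (C.mapA φ (S v i))) = _
      rw [hc]; rfl
    simp only [LinearMap.comp_apply, h1, _root_.map_smul, LinearMap.id_apply]
    simp only [Φ, LinearMap.coe_sum, Finset.sum_apply, LinearMap.comp_apply,
      LinearMap.coe_restrictScalars, LinearMap.proj_apply, h2, ← TensorProduct.tmul_sum, hsum,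
      TensorProduct.smul_tmul', smul_eq_mul, mul_one]
  have hsurj : Function.Surjective μ := by
    rw [← LinearMap.range_eq_top, LinearMap.range_liftBaseChange, eq_top_iff]
    intro w _
    obtain ⟨n, hn⟩ := T'.exists_pow_smul_mem_p w
    rw [← T'.Y_pow_smul_X_pow_smul n w]
    suffices H : ∀ x ∈ Submodule.span R' (F.toFun '' (T.p : Set T.M)),
        C.Y₀ R' ^ n • x ∈ Submodule.span R' (LinearMap.range F.linearMap : Set T'.M) from
      H _ (F.span_p hn)
    intro x hx
    induction hx using Submodule.span_induction with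
    | mem x hx =>
      obtain ⟨v, -, rfl⟩ := hx
      refine Submodule.subset_span ⟨C.Y₀ R ^ n • v, ?_⟩
      show F.toFun (C.Y₀ R ^ n • v) = _
      rw [F.map_smul, map_pow, C.mapA_Y₀]
    | zero => rw [smul_zero]; exact zero_mem _
    | add x y _ _ hx hy => rw [smul_add]; exact add_mem hx hy
    | smul r x _ hx => rw [smul_comm]; exact Submodule.smul_mem _ _ hx
  exact ⟨Function.LeftInverse.injective (g := Φ) (LinearMap.congr_fun hleft), hsurj⟩

/-- When `H1 = 0` the sections commute with base change. -/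
theorem exists_equiv_H0 (F : BC (IsScalarTower.toAlgHom k R R') T T') (h : T.pR ⊔ T.mR = ⊤) :
    ∃ e : R' ⊗[R] T.H0 ≃ₗ[R'] T'.H0, ∀ v : T.H0, (e (1 ⊗ₜ v) : T'.M) = F.toFun v := by
  let : Module R T'.M := Module.compHom T'.M (algebraMap R R')
  have : IsScalarTower R R' T'.M := IsScalarTower.of_algebraMap_smul fun _ _ => rfl
  have := T.projective
  obtain ⟨ρ, hρ, hρ'⟩ := T.exists_retraction_p
  obtain ⟨σ, hσ, hσ'⟩ := T.swap.exists_retraction_p
  obtain ⟨e, he⟩ := exists_equiv_inf F.isBaseChange h ρ σ hρ hρ' hσ hσ'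
  exact ⟨e.trans (LinearEquiv.ofEq _ _ (congrArg₂ (· ⊓ ·) F.pR_eq.symm F.mR_eq.symm)),
    fun v => he v⟩

end Triple.BC

end Fermat.Agent.RelPic
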