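import Mathlib
import Fermat.Agent.RelPic.Basic
import Fermat.Agent.RelPic.Chart.Generate

/-!
# Pairs of lattices

Linear algebra of two submodules `P`, `Q` of a module: finiteness of `P ⊓ Q`, its projectivity when
`P ⊔ Q` is everything, and the Euler characteristic.
-/

set_option autoImplicit false

noncomputable section

universe u

open Polynomial

namespace Fermat.Agent.RelPic

section Split

variable {R M : Type*} [CommRing R] [AddCommGroup M] [Module R M] {P Q P' : Submodule R M}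

/-- When `P + Q` is everything, `P ⊓ Q` is a retract of `P × Q`, by a map killing `P' × Q`. -/
theorem exists_inf_retraction [Module.Projective R M] (hsup : P ⊔ Q = ⊤) (τ ρ : M →ₗ[R] M)
    (hτP : ∀ v, τ v ∈ P) (hτQ : ∀ v ∈ Q, τ v = 0) (hτ : ∀ w ∈ P', τ w = w) (_hP' : P' ≤ P)
    (hρQ : ∀ v, ρ v ∈ Q) (hρ : ∀ v ∈ Q, ρ v = v) :
    ∃ r : P × Q →ₗ[R] ↥(P ⊓ Q),
      (∀ v : ↥(P ⊓ Q), r (⟨v, v.2.1⟩, -⟨v, v.2.2⟩) = v) ∧
        ∀ (x : P) (y : Q), (x : M) ∈ P' → r (x, y) = 0 := by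
  let sum : P × Q →ₗ[R] M := P.subtype.coprod Q.subtype
  have hsurj : Function.Surjective sum := by
    rw [← LinearMap.range_eq_top, LinearMap.range_coprod, Submodule.range_subtype,
      Submodule.range_subtype, hsup]
  obtain ⟨σ₀, hσ₀⟩ := Module.projective_lifting_property sum LinearMap.id hsurj
  let τ' : M →ₗ[R] P := τ.codRestrict P hτP
  let ρ' : M →ₗ[R] Q := ρ.codRestrict Q hρQ
  let σ : M →ₗ[R] P × Q := τ'.prod (ρ' ∘ₗ (LinearMap.id - τ))
  let σ₁ : M →ₗ[R] P × Q := σ + σ₀ ∘ₗ (LinearMap.id - sum ∘ₗ σ)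
  let r₀ : P × Q →ₗ[R] P × Q := LinearMap.id - σ₁ ∘ₗ sum
  have hker : ∀ z, ((r₀ z).1 : M) + ((r₀ z).2 : M) = 0 := by
    intro z
    show sum (r₀ z) = 0
    have h : ∀ v, sum (σ₀ v) = v := fun v => LinearMap.congr_fun hσ₀ v
    simp only [r₀, σ₁, LinearMap.sub_apply, LinearMap.id_coe, id_eq, LinearMap.comp_apply,
      LinearMap.add_apply, map_sub, map_add, h]
    abel
  have hmem : ∀ z, ((r₀ z).1 : M) ∈ P ⊓ Q := fun z =>
    ⟨(r₀ z).1.2, by rw [eq_neg_of_add_eq_zero_left (hker z)]; exact Q.neg_mem (r₀ z).2.2⟩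
  refine ⟨(P.subtype ∘ₗ LinearMap.fst R P Q ∘ₗ r₀).codRestrict _ hmem, fun v => ?_,
    fun x y hx => ?_⟩
  · refine Subtype.ext ?_
    have h : sum (⟨v, v.2.1⟩, -⟨v, v.2.2⟩) = 0 := by simp [sum]
    show (((r₀ (⟨v, v.2.1⟩, -⟨v, v.2.2⟩)).1 : P) : M) = v
    simp [r₀, h]
  · refine Subtype.ext ?_
    have h1 : τ ((x : M) + y) = x := by rw [map_add, hτ _ hx, hτQ _ y.2, add_zero]
    have h2 : σ (sum (x, y)) = (x, y) := by
      refine Prod.ext (Subtype.ext ?_) (Subtype.ext ?_)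
      · simpa [σ, sum, τ'] using h1
      · show ρ (((x : M) + y) - τ ((x : M) + y)) = y
        rw [h1, add_sub_cancel_left, hρ _ y.2]
    have h3 : σ₁ (sum (x, y)) = (x, y) := by simp [σ₁, h2]
    show (((r₀ (x, y)).1 : P) : M) = 0
    simp [r₀, h3]

/-- With `P + Q` everything and `P` finitely generated modulo `P'`, the sections `P ⊓ Q` are finite
and projective. -/
theorem finite_projective_inf [Module.Projective R M] [Module.Projective R P]
    [Module.Projective R Q] (hsup : P ⊔ Q = ⊤) (τ ρ : M →ₗ[R] M) (hτP : ∀ v, τ v ∈ P)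
    (hτQ : ∀ v ∈ Q, τ v = 0) (hτ : ∀ w ∈ P', τ w = w) (hP' : P' ≤ P)
    (hρQ : ∀ v, ρ v ∈ Q) (hρ : ∀ v ∈ Q, ρ v = v) {F : Submodule R M} (hF : F.FG) (hFP : F ≤ P)
    (hdec : P ≤ F ⊔ P') :
    Module.Finite R ↥(P ⊓ Q) ∧ Module.Projective R ↥(P ⊓ Q) := by
  obtain ⟨r, hr, hr0⟩ := exists_inf_retraction hsup τ ρ hτP hτQ hτ hP' hρQ hρ
  refine ⟨?_, Module.Projective.of_split
    ((Submodule.inclusion inf_le_left).prod (-Submodule.inclusion inf_le_right)) r
      (LinearMap.ext fun v => hr v)⟩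
  have : Module.Finite R F := Module.Finite.iff_fg.mpr hF
  refine Module.Finite.of_surjective (r ∘ₗ LinearMap.inl R P Q ∘ₗ Submodule.inclusion hFP)
    fun v => ?_
  obtain ⟨f, hf, w, hw, hfw⟩ := Submodule.mem_sup.mp (hdec v.2.1)
  refine ⟨⟨f, hf⟩, ?_⟩
  have e : ((⟨v, v.2.1⟩ : P), -(⟨v, v.2.2⟩ : Q)) =
      ((⟨f, hFP hf⟩ : P), 0) + ((⟨w, hP' hw⟩ : P), -(⟨v, v.2.2⟩ : Q)) :=
    Prod.ext (Subtype.ext hfw.symm) (by simp)
  refine Eq.trans ?_ (hr v)
  rw [e, map_add, hr0 ⟨w, hP' hw⟩ _ hw, add_zero]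
  rfl

/-- Over a noetherian base, `P ⊓ Q` is finite. -/
theorem finite_inf [IsNoetherianRing R] (τ : M →ₗ[R] M) (hτQ : ∀ v ∈ Q, τ v = 0)
    (hτ : ∀ w ∈ P', τ w = w) {F : Submodule R M} (hF : F.FG) (hdec : P ≤ F ⊔ P') :
    Module.Finite R ↥(P ⊓ Q) := by
  have hfg : (F.map P'.mkQ).FG := hF.map _
  have : Module.Finite R (F.map P'.mkQ) := Module.Finite.iff_fg.mpr hfg
  have hmem : ∀ v : ↥(P ⊓ Q), P'.mkQ v ∈ F.map P'.mkQ := fun v => by
    obtain ⟨f, hf, w, hw, hfw⟩ := Submodule.mem_sup.mp (hdec v.2.1)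
    refine ⟨f, hf, ?_⟩
    rw [← hfw, map_add, (Submodule.Quotient.mk_eq_zero P').mpr hw |> fun h => show P'.mkQ w = 0 from h,
      add_zero]
  refine Module.Finite.of_injective ((P'.mkQ ∘ₗ (P ⊓ Q).subtype).codRestrict _ hmem) ?_
  refine (injective_iff_map_eq_zero _).mpr fun v hv => Subtype.ext ?_
  have hv' : (v : M) ∈ P' := (Submodule.Quotient.mk_eq_zero P').mp (congrArg Subtype.val hv)
  rw [← hτ _ hv', hτQ _ v.2.2]
  rfl

end Split

section Chi

variable {K V : Type u} [Field K] [AddCommGroup V] [Module K V] {p m m' : Submodule K V}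

/-- The Euler characteristic grows by the index of an enlarged second lattice. -/
theorem chiOf_mono_right (hle : m ≤ m') [Module.Finite K (m' ⧸ m.comap m'.subtype)]
    [Module.Finite K ↥(p ⊓ m')] [Module.Finite K (V ⧸ (p ⊔ m))] :
    chiOf p m' = chiOf p m + Module.finrank K (m' ⧸ m.comap m'.subtype) := by
  let f : (m' ⧸ m.comap m'.subtype) →ₗ[K] V ⧸ (p ⊔ m) :=
    (m.comap m'.subtype).mapQ (p ⊔ m) m'.subtype (Submodule.comap_mono le_sup_right)
  let g : ↥(p ⊓ m') →ₗ[K] (m' ⧸ m.comap m'.subtype) :=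
    (m.comap m'.subtype).mkQ ∘ₗ Submodule.inclusion inf_le_right
  let q : (V ⧸ (p ⊔ m)) →ₗ[K] V ⧸ (p ⊔ m') :=
    (p ⊔ m).mapQ (p ⊔ m') LinearMap.id (fun v hv => sup_le_sup_left hle p hv)
  have hfg : LinearMap.ker f = LinearMap.range g := by
    refine le_antisymm (fun x hx => ?_) ?_
    · obtain ⟨v, rfl⟩ := Submodule.mkQ_surjective _ x
      obtain ⟨a, ha, b, hb, hab⟩ :=
        Submodule.mem_sup.mp ((Submodule.Quotient.mk_eq_zero _).mp (LinearMap.mem_ker.mp hx))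
      have ha' : a ∈ m' := by
        rw [show a = m'.subtype v - b from eq_sub_of_add_eq hab]
        exact m'.sub_mem v.2 (hle hb)
      refine ⟨⟨a, ha, ha'⟩, (Submodule.Quotient.eq _).mpr ?_⟩
      show a - (v : V) ∈ m
      rw [show (v : V) = a + b from hab.symm, sub_add_cancel_left]
      exact m.neg_mem hb
    · rintro _ ⟨v, rfl⟩
      exact (Submodule.Quotient.mk_eq_zero _).mpr (Submodule.mem_sup_left v.2.1)
  have hqf : LinearMap.ker q = LinearMap.range f := by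
    refine le_antisymm (fun x hx => ?_) ?_
    · obtain ⟨v, rfl⟩ := Submodule.mkQ_surjective _ x
      obtain ⟨a, ha, b, hb, rfl⟩ :=
        Submodule.mem_sup.mp ((Submodule.Quotient.mk_eq_zero _).mp (LinearMap.mem_ker.mp hx))
      refine ⟨Submodule.Quotient.mk ⟨b, hb⟩, (Submodule.Quotient.eq _).mpr ?_⟩
      show b - (a + b) ∈ p ⊔ m
      rw [sub_add_cancel_right]
      exact Submodule.neg_mem _ (Submodule.mem_sup_left ha)
    · rintro _ ⟨x, rfl⟩
      obtain ⟨v, rfl⟩ := Submodule.mkQ_surjective _ x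
      exact (Submodule.Quotient.mk_eq_zero _).mpr (Submodule.mem_sup_right v.2)
  have hq : Function.Surjective q := fun x => by
    obtain ⟨v, rfl⟩ := Submodule.mkQ_surjective _ x
    exact ⟨Submodule.Quotient.mk v, rfl⟩
  have hg : LinearMap.ker g = Submodule.comap (p ⊓ m').subtype (p ⊓ m) := by
    ext v
    refine (Submodule.Quotient.mk_eq_zero _).trans ?_
    exact ⟨fun h => ⟨v.2.1, h⟩, fun h => h.2⟩
  have e1 := f.finrank_range_add_finrank_ker
  have e2 := g.finrank_range_add_finrank_ker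
  have e3 := q.finrank_range_add_finrank_ker
  rw [hfg] at e1
  rw [hg, (Submodule.comapSubtypeEquivOfLe (inf_le_inf_left p hle)).finrank_eq] at e2
  rw [hqf, LinearMap.range_eq_top.mpr hq, finrank_top] at e3
  simp only [chiOf]
  omega

end Chi

end Fermat.Agent.RelPic
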