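import Fermat.Agent.RelPic.Complex.BaseChange
import Fermat.Agent.RelPic.Complex.Lattice

/-!
# Cohomology of a triple

`H1` is finite and commutes with base change; twisting kills it; where it vanishes `H0` is finite
projective; over a field both are finite and the degree does not change in field extensions.
-/

set_option autoImplicit false
set_option synthInstance.maxHeartbeats 400000

noncomputable section

universe u

open scoped TensorProduct

namespace Fermat.Agent.RelPic

namespace Triple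

variable {k : Type u} [Field k] {C : Model k} {R R' : Type u} [CommRing R] [Algebra k R]
  [CommRing R'] [Algebra k R'] (T : Triple C R)

/-- Multiplication by a power of the coordinate. -/
abbrev mulX (n : ℕ) : T.M →ₗ[R] T.M :=
  (LinearMap.lsmul (C.A R) T.M (C.X₀ R ^ n)).restrictScalars R

/-- Multiplication by a power of the inverse coordinate. -/
abbrev mulY (n : ℕ) : T.M →ₗ[R] T.M :=
  (LinearMap.lsmul (C.A R) T.M (C.Y₀ R ^ n)).restrictScalars R

theorem map_mulX_pR_le (n : ℕ) : T.pR.map (T.mulX n) ≤ T.pR := by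
  rintro _ ⟨v, hv, rfl⟩; exact T.X_pow_smul_mem_p hv

/-- A bound for a finitely generated piece in the second lattice. -/
theorem exists_pow_smul_mem_m_of_fg {G : Submodule R T.M} (hG : G.FG) :
    ∃ n₀, ∀ n, n₀ ≤ n → ∀ v ∈ G, C.Y₀ R ^ n • v ∈ T.mR := by
  obtain ⟨s, rfl⟩ := hG
  choose e he using T.exists_pow_smul_mem_m
  refine ⟨s.sup e, fun n hn v hv => ?_⟩
  refine (Submodule.span_le (p := T.mR.comap (T.mulY n))).mpr (fun x hx => ?_) hv
  show C.Y₀ R ^ n • x ∈ T.m
  have : e x ≤ n := (Finset.le_sup (f := e) hx).trans hn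
  rw [show n = (n - e x) + e x by omega, pow_add, mul_smul]
  exact T.Y_pow_smul_mem_m (he x)

/-- The lattices and a finitely generated module span everything. -/
theorem exists_fg_sup_eq_top : ∃ G : Submodule R T.M, G.FG ∧ T.pR ⊔ T.mR ⊔ G = ⊤ := by
  obtain ⟨F, hF, -, hdec⟩ := T.exists_fg_sup 1
  obtain ⟨Z, hZ⟩ := T.exists_pow_smul_mem_m_of_fg hF
  let G := (Finset.range (Z + 2)).sup fun z => F.map (T.mulY z)
  have hG : ∀ z < Z + 2, ∀ f ∈ F, C.Y₀ R ^ z • f ∈ G := fun z hz f hf =>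
    Finset.le_sup (f := fun z => F.map (T.mulY z)) (Finset.mem_range.mpr hz) ⟨f, hf, rfl⟩
  refine ⟨G, Submodule.fg_finset_sup _ _ fun z _ => hF.map _, ?_⟩
  set S := T.pR ⊔ T.mR ⊔ G
  have hS : S ≤ S.comap (T.mulY 1) := by
    refine sup_le (sup_le (fun v hv => ?_) fun v hv => ?_) (Finset.sup_le fun z hz => ?_)
    · obtain ⟨f, hf, w, hw, rfl⟩ := hdec v hv
      show C.Y₀ R ^ 1 • (f + C.X₀ R ^ 1 • w) ∈ S
      rw [smul_add, T.Y_pow_smul_X_pow_smul]
      exact add_mem (Submodule.mem_sup_right (hG 1 (by omega) f hf))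
        (Submodule.mem_sup_left (Submodule.mem_sup_left hw))
    · exact Submodule.mem_sup_left (Submodule.mem_sup_right (T.Y_pow_smul_mem_m hv))
    · rintro _ ⟨f, hf, rfl⟩
      show C.Y₀ R ^ 1 • C.Y₀ R ^ z • f ∈ S
      rw [smul_smul, ← pow_add]
      rw [Finset.mem_range] at hz
      by_cases h : 1 + z < Z + 2
      · exact Submodule.mem_sup_right (hG _ h f hf)
      · exact Submodule.mem_sup_left (Submodule.mem_sup_right (hZ _ (by omega) f hf))
  refine eq_top_iff.mpr fun v _ => ?_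
  obtain ⟨n, hn⟩ := T.exists_pow_smul_mem_p v
  rw [← T.Y_pow_smul_X_pow_smul n v]
  generalize C.X₀ R ^ n • v = u at hn
  induction n with
  | zero => rw [pow_zero, one_smul]; exact Submodule.mem_sup_left (Submodule.mem_sup_left hn)
  | succ n ih =>
    rw [add_comm, pow_add, mul_smul]
    exact hS ih

/-- The first cohomology is finite. -/
theorem finite_H1 : Module.Finite R T.H1 := by
  obtain ⟨G, hG, htop⟩ := T.exists_fg_sup_eq_top
  have : Module.Finite R G := Module.Finite.iff_fg.mpr hG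
  refine Module.Finite.of_surjective ((T.pR ⊔ T.mR).mkQ ∘ₗ G.subtype) fun x => ?_
  obtain ⟨v, rfl⟩ := Submodule.mkQ_surjective _ x
  obtain ⟨a, ha, b, hb, rfl⟩ := Submodule.mem_sup.mp (htop.ge (Submodule.mem_top (x := v)))
  exact ⟨⟨b, hb⟩, (Submodule.Quotient.eq _).mpr (by simpa using Submodule.neg_mem _ ha)⟩

/-- Large twists have no first cohomology. -/
theorem exists_twist_eq_top : ∃ n₀, ∀ n, n₀ ≤ n → T.pR ⊔ Idx.mShift T n = ⊤ := by
  obtain ⟨G, hG, htop⟩ := T.exists_fg_sup_eq_top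
  obtain ⟨n₀, hn₀⟩ := T.exists_pow_smul_mem_m_of_fg hG
  refine ⟨n₀, fun n hn => eq_top_iff.mpr (htop.ge.trans (sup_le (sup_le le_sup_left ?_) ?_))⟩
  · intro v hv
    exact Submodule.mem_sup_right ⟨_, T.Y_pow_smul_mem_m hv, T.X_pow_smul_Y_pow_smul n v⟩
  · intro v hv
    exact Submodule.mem_sup_right ⟨_, hn₀ n hn v hv, T.X_pow_smul_Y_pow_smul n v⟩

/-- Over a noetherian ring the sections are finite. -/
theorem finite_H0 [IsNoetherianRing R] : Module.Finite R T.H0 := by
  obtain ⟨c, τ, hτm, -, hτ⟩ := T.exists_sep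
  obtain ⟨F, hF, -, hdec⟩ := T.exists_fg_sup c
  refine finite_inf (P' := T.pR.map (T.mulX c)) τ hτm ?_ hF fun v hv => ?_
  · rintro _ ⟨w, hw, rfl⟩; exact hτ w hw
  · obtain ⟨f, hf, w, hw, rfl⟩ := hdec v hv
    exact Submodule.add_mem_sup hf ⟨w, hw, rfl⟩

theorem finite_projective_H0 (h : T.pR ⊔ T.mR = ⊤) :
    Module.Finite R T.H0 ∧ Module.Projective R T.H0 := by
  obtain ⟨c, τ, hτm, hτp, hτ⟩ := T.exists_sep
  obtain ⟨F, hF, hFp, hdec⟩ := T.exists_fg_sup c
  obtain ⟨σ, hσ, hσ'⟩ := T.swap.exists_retraction_p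
  have := T.projective
  have := T.projective_pR
  have := T.projective_mR
  refine finite_projective_inf (P' := T.pR.map (T.mulX c)) h τ σ (fun v => ?_) hτm ?_
    (T.map_mulX_pR_le c) hσ hσ' hF hFp fun v hv => ?_
  · obtain ⟨w, hw, e⟩ := hτp v
    rw [e]; exact T.X_pow_smul_mem_p hw
  · rintro _ ⟨w, hw, rfl⟩; exact hτ w hw
  · obtain ⟨f, hf, w, hw, rfl⟩ := hdec v hv
    exact Submodule.add_mem_sup hf ⟨w, hw, rfl⟩

namespace BC

variable {φ : R →ₐ[k] R'} {T} {T' : Triple C R'}

/-- The image spans over the base ring. -/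
theorem span_base (F : BC φ T T') : Submodule.span R' (Set.range F.toFun) = ⊤ := by
  refine eq_top_iff.mpr fun w _ => ?_
  obtain ⟨n, hn⟩ := T'.exists_pow_smul_mem_p w
  rw [← T'.Y_pow_smul_X_pow_smul n w]
  refine Submodule.span_induction
    (p := fun x _ => C.Y₀ R' ^ n • x ∈ Submodule.span R' (Set.range F.toFun))
    ?_ ?_ ?_ ?_ (F.span_p hn)
  · rintro _ ⟨v, -, rfl⟩
    refine Submodule.subset_span ⟨C.Y₀ R ^ n • v, ?_⟩
    rw [F.map_smul, map_pow, C.mapA_Y₀]
  · rw [smul_zero]; exact zero_mem _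
  · intro x y _ _ hx hy; rw [smul_add]; exact add_mem hx hy
  · intro r x _ hx; rw [smul_comm]; exact Submodule.smul_mem _ _ hx

/-- If `f` kills `H1` and becomes a unit, then `H1` of the base change vanishes. -/
theorem sup_eq_top_of_isUnit (F : BC φ T T') {f : R} (hf : ∀ v, f • v ∈ T.pR ⊔ T.mR)
    (hu : IsUnit (φ f)) : T'.pR ⊔ T'.mR = ⊤ := by
  refine eq_top_iff.mpr (F.span_base.ge.trans (Submodule.span_le.mpr ?_))
  rintro _ ⟨v, rfl⟩
  obtain ⟨a, ha, b, hb, hab⟩ := Submodule.mem_sup.mp (hf v)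
  obtain ⟨u, hu⟩ := hu
  have h : (u : R') • F.toFun v ∈ T'.pR ⊔ T'.mR := by
    rw [hu, ← F.map_smul_base, ← hab, map_add]
    exact Submodule.add_mem_sup (F.map_p a ha) (F.map_m b hb)
  have := Submodule.smul_mem _ (↑u⁻¹ : R') h
  rwa [smul_smul, Units.inv_mul, one_smul] at this

/-- Vanishing of `H1` persists under base change. -/
theorem sup_eq_top (F : BC φ T T') (h : T.pR ⊔ T.mR = ⊤) : T'.pR ⊔ T'.mR = ⊤ :=
  F.sup_eq_top_of_isUnit (f := 1) (fun _ => h ▸ Submodule.mem_top) (by rw [map_one]; exact isUnit_one)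

section

variable [Algebra R R'] [IsScalarTower k R R']

/-- The first cohomology commutes with base change. -/
theorem exists_equiv_H1 (F : BC (IsScalarTower.toAlgHom k R R') T T') :
    ∃ e : R' ⊗[R] T.H1 ≃ₗ[R'] T'.H1,
      ∀ v, e (1 ⊗ₜ Submodule.mkQ _ v) = Submodule.Quotient.mk (F.toFun v) := by
  let : Module R T'.M := Module.compHom T'.M (algebraMap R R')
  have : IsScalarTower R R' T'.M := IsScalarTower.of_algebraMap_smul fun _ _ => rfl
  obtain ⟨e, he⟩ := exists_equiv_quotient F.isBaseChange (T.pR ⊔ T.mR)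
  have heq : Submodule.span R' (F.linearMap '' ((T.pR ⊔ T.mR : Submodule R T.M) : Set T.M)) =
      T'.pR ⊔ T'.mR := by
    refine le_antisymm (Submodule.span_le.mpr ?_) (sup_le ?_ ?_)
    · rintro _ ⟨v, hv, rfl⟩
      obtain ⟨a, ha, b, hb, rfl⟩ := Submodule.mem_sup.mp hv
      rw [_root_.map_add]
      exact Submodule.add_mem_sup (F.map_p a ha) (F.map_m b hb)
    · rw [F.pR_eq]
      exact Submodule.span_mono (Set.image_mono fun v hv => Submodule.mem_sup_left hv)
    · rw [F.mR_eq]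
      exact Submodule.span_mono (Set.image_mono fun v hv => Submodule.mem_sup_right hv)
  refine ⟨e.trans (Submodule.quotEquivOfEq _ _ heq), fun v => ?_⟩
  rw [LinearEquiv.trans_apply, he]
  rfl

end

/-- The degree is invariant under extension of the base field. -/
theorem deg_eq {K K' : Type u} [Field K] [Algebra k K] [Field K'] [Algebra k K'] {φ : K →ₐ[k] K'}
    {T : Triple C K} {T' : Triple C K'} (F : BC φ T T') : T'.deg = T.deg := by
  let : Algebra K K' := φ.toRingHom.toAlgebra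
  have : IsScalarTower k K K' := IsScalarTower.of_algebraMap_eq fun x => (φ.commutes x).symm
  have hφ : φ = IsScalarTower.toAlgHom k K K' := AlgHom.ext fun _ => rfl
  replace F : BC (IsScalarTower.toAlgHom k K K') T T' := hφ ▸ F
  let : Module K T'.M := Module.compHom T'.M (algebraMap K K')
  have : IsScalarTower K K' T'.M := IsScalarTower.of_algebraMap_smul fun _ _ => rfl
  obtain ⟨ρ, hρ, hρ'⟩ := T.exists_retraction_p
  obtain ⟨D, hD⟩ := Submodule.exists_isCompl (T.pR ⊓ T.mR)
  obtain ⟨L, hL, hLid, hL0⟩ := Model.exists_proj (k := K) (S := T.pR ⊓ D) (T := T.mR) (by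
    rw [disjoint_iff, inf_right_comm]; exact hD.disjoint.eq_bot)
  have hLQ : ∀ v ∈ T.pR, v - L v ∈ T.mR := fun v hv => by
    obtain ⟨a, ha, c, hc, rfl⟩ :=
      Submodule.mem_sup.mp (hD.sup_eq_top.ge (Submodule.mem_top (x := v)))
    have hcp : c ∈ T.pR ⊓ D := ⟨(Submodule.add_mem_iff_right _ ha.1).mp hv, hc⟩
    rw [_root_.map_add, hL0 a ha.2, hLid c hcp, zero_add, add_sub_cancel_right]
    exact ha.2
  obtain ⟨e₀, -⟩ := exists_equiv_inf_of_complement F.isBaseChange ρ L hρ hρ'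
    (fun v => (hL v).1) hLQ hL0
  obtain ⟨e₁, -⟩ := F.exists_equiv_H1
  have h0 : Module.finrank K' T'.H0 = Module.finrank K T.H0 := by
    rw [show T'.H0 = _ ⊓ _ from congrArg₂ (· ⊓ ·) F.pR_eq F.mR_eq]
    exact e₀.finrank_eq.symm.trans Module.finrank_baseChange
  have h1 : Module.finrank K' T'.H1 = Module.finrank K T.H1 :=
    e₁.finrank_eq.symm.trans Module.finrank_baseChange
  simp only [Triple.deg, chiOf]
  rw [h0, h1]

end BC

end Triple

end Fermat.Agent.RelPic
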