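import Mathlib
import Fermat.Agent.RelPic.Basic

/-!
# The coordinate rings of a two-chart model over a base ring

The swapped model, membership in `Cp`, linear projections onto `Cp`, and the digit decomposition
`Cp = (span of the basis) + X₀ Cp`.
-/

set_option autoImplicit false

noncomputable section

universe u

open scoped TensorProduct
open Polynomial

namespace Fermat.Agent.RelPic

namespace Model

variable {k : Type u} [Field k] (C : Model k)

/-- The model with the two charts exchanged. -/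
abbrev swap : Model k where
  F := C.F
  x := C.x⁻¹
  x_ne := inv_ne_zero C.x_ne
  Ap := C.Am
  Am := C.Ap
  A₀ := C.A₀
  x_mem := C.x_inv_mem
  x_inv_mem := (inv_inv C.x).symm ▸ C.x_mem
  Ap_le := C.Am_le
  Am_le := C.Ap_le
  exists_mul_pow_mem := C.exists_mul_inv_pow_mem
  exists_mul_inv_pow_mem := fun a ha => (inv_inv C.x).symm ▸ C.exists_mul_pow_mem a ha
  d := C.d
  d_pos := C.d_pos
  free_p := C.free_m
  free_m := by
    obtain ⟨b, hb⟩ := C.free_p
    refine ⟨b, ?_⟩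
    have e : (⟨C.x⁻¹⁻¹, (inv_inv C.x).symm ▸ C.x_mem⟩ : C.Ap) = ⟨C.x, C.x_mem⟩ :=
      Subtype.ext (inv_inv C.x)
    simpa only [e] using hb
  inf_eq := by rw [inf_comm]; exact C.inf_eq

theorem swap_Y₀ (R : Type u) [CommRing R] [Algebra k R] : C.swap.Y₀ R = C.X₀ R := by
  simp only [Model.Y₀, Model.X₀]
  congr 1
  exact Subtype.ext (inv_inv C.x)

/-! ### The overlap ring over `k` -/

theorem aeval_x_injective : Function.Injective (aeval C.x : k[X] →ₐ[k] C.F) := by
  obtain ⟨b, hb⟩ := C.free_p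
  refine (injective_iff_map_eq_zero _).mpr fun p hp => ?_
  have h0 : (fun i : Fin C.d => if i = ⟨0, C.d_pos⟩ then p else 0) = 0 := by
    refine hb.1 (Finset.sum_congr rfl fun i _ => ?_)
    have hp' : aeval (⟨C.x, C.x_mem⟩ : C.Ap) p = 0 := Subtype.ext (by
      rw [← Subalgebra.val_apply, ← aeval_algHom_apply]; exact hp)
    by_cases h : i = ⟨0, C.d_pos⟩ <;> simp [h, hp']
  simpa using congrFun h0 ⟨0, C.d_pos⟩

/-- No nonzero function on the first chart becomes regular on the second after multiplication by a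
positive power of `x`. -/
theorem eq_zero_of_pow_mul_mem {a : C.F} (ha : a ∈ C.Ap) (j : ℕ)
    (h : C.x ^ (j + 1) * a ∈ C.Am) : a = 0 := by
  have h1 : C.x ^ (j + 1) * a ∈ C.Ap ⊓ C.Am := ⟨mul_mem (pow_mem C.x_mem _) ha, h⟩
  rw [C.inf_eq, Algebra.mem_bot] at h1
  obtain ⟨c, hc⟩ := h1
  have h2 : a ∈ C.Ap ⊓ C.Am := by
    refine ⟨ha, ?_⟩
    have e : a = (C.x⁻¹) ^ (j + 1) * algebraMap k C.F c := by
      rw [hc, inv_pow, inv_mul_cancel_left₀ (pow_ne_zero _ C.x_ne)]
    rw [e]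
    exact mul_mem (pow_mem C.x_inv_mem _) (C.Am.algebraMap_mem c)
  rw [C.inf_eq, Algebra.mem_bot] at h2
  obtain ⟨c', rfl⟩ := h2
  have h3 : (Polynomial.C c' * X ^ (j + 1) : k[X]) = Polynomial.C c :=
    C.aeval_x_injective (by rw [map_mul, aeval_C, map_pow, aeval_X, aeval_C, hc]; exact mul_comm _ _)
  have h4 : c' = 0 := by
    have h := congrArg (fun p => p.coeff (j + 1)) h3
    simpa using h
  rw [h4, map_zero]

/-- The first chart inside the overlap, as a subspace. -/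
def subP : Submodule k C.A₀ := (Subalgebra.inclusion C.Ap_le).toLinearMap.range

/-- The second chart inside the overlap, as a subspace. -/
def subM : Submodule k C.A₀ := (Subalgebra.inclusion C.Am_le).toLinearMap.range

theorem mem_subP {a : C.A₀} : a ∈ C.subP ↔ (a : C.F) ∈ C.Ap :=
  ⟨fun ⟨b, hb⟩ => hb ▸ b.2, fun h => ⟨⟨a, h⟩, rfl⟩⟩

theorem mem_subM {a : C.A₀} : a ∈ C.subM ↔ (a : C.F) ∈ C.Am :=
  ⟨fun ⟨b, hb⟩ => hb ▸ b.2, fun h => ⟨⟨a, h⟩, rfl⟩⟩

/-- The coordinate in the overlap. -/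
abbrev x₀ : C.A₀ := ⟨C.x, C.Ap_le C.x_mem⟩

/-- Multiples of `x` in the first chart. -/
def subXP : Submodule k C.A₀ := C.subP.map (LinearMap.mulLeft k C.x₀)

theorem disjoint_subXP_subM : Disjoint C.subXP C.subM := by
  rw [Submodule.disjoint_def]
  rintro _ ⟨a, ha, rfl⟩ h
  have h' : C.x ^ (0 + 1) * (a : C.F) ∈ C.Am := by
    rw [zero_add, pow_one]; exact C.mem_subM.mp h
  simp [show a = 0 from Subtype.ext (C.eq_zero_of_pow_mul_mem (C.mem_subP.mp ha) 0 h')]

/-- A projection onto one of two disjoint subspaces, killing the other. -/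
theorem exists_proj {V : Type*} [AddCommGroup V] [Module k V] {S T : Submodule k V}
    (h : Disjoint S T) :
    ∃ f : V →ₗ[k] V, (∀ v, f v ∈ S) ∧ (∀ v ∈ S, f v = v) ∧ ∀ v ∈ T, f v = 0 := by
  have hinj : LinearMap.ker (S.subtype.coprod T.subtype) = ⊥ := by
    rw [LinearMap.ker_coprod_of_disjoint_range] <;> simp [h]
  obtain ⟨l, hl⟩ := (S.subtype.coprod T.subtype).exists_leftInverse_of_injective hinj
  refine ⟨S.subtype.comp ((LinearMap.fst k S T).comp l), fun v => ((l v).1).2, fun v hv => ?_,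
    fun v hv => ?_⟩
  · have e : l v = ((⟨v, hv⟩ : S), 0) := by
      simpa using LinearMap.congr_fun hl ((⟨v, hv⟩ : S), (0 : T))
    simp [e]
  · have e : l v = (0, (⟨v, hv⟩ : T)) := by
      simpa using LinearMap.congr_fun hl ((0 : S), (⟨v, hv⟩ : T))
    simp [e]

theorem exists_projP : ∃ f : C.A₀ →ₗ[k] C.A₀, (∀ a, f a ∈ C.subP) ∧ (∀ a ∈ C.subP, f a = a) ∧
    ∀ a ∈ (⊥ : Submodule k C.A₀), f a = 0 :=
  exists_proj disjoint_bot_right

/-- The linear digits of functions on the first chart. -/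
theorem exists_digits : ∃ (b : Fin C.d → C.A₀) (c : C.A₀ →ₗ[k] Fin C.d → k),
    (∀ i, b i ∈ C.subP) ∧ (∀ i, c (b i) = Pi.single i 1) ∧
      (∀ a ∈ C.subP, c (C.x₀ * a) = 0) ∧
      ∀ a ∈ C.subP, ∃ a' ∈ C.subP, a = ∑ i, c a i • b i + C.x₀ * a' := by
  obtain ⟨b, hb⟩ := C.free_p
  let xA : C.Ap := ⟨C.x, C.x_mem⟩
  let L : (Fin C.d → k[X]) →ₗ[k] C.Ap :=
    { toFun := fun f => ∑ i, aeval xA (f i) * b i
      map_add' := fun f g => by simp [add_mul, Finset.sum_add_distrib]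
      map_smul' := fun r f => by simp [Finset.smul_sum] }
  let e := LinearEquiv.ofBijective L hb
  obtain ⟨f, hfP, hfid, -⟩ := C.exists_projP
  let fp : C.A₀ →ₗ[k] C.Ap :=
    { toFun := fun a => ⟨f a, C.mem_subP.mp (hfP a)⟩
      map_add' := fun a a' => Subtype.ext (by simp)
      map_smul' := fun r a => Subtype.ext (by simp) }
  let d0 : (Fin C.d → k[X]) →ₗ[k] Fin C.d → k :=
    LinearMap.pi fun i => (Polynomial.lcoeff k 0).comp (LinearMap.proj i)
  have hincl : ∀ a : C.Ap, fp (Subalgebra.inclusion C.Ap_le a) = a := fun a =>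
    Subtype.ext (show ((f (Subalgebra.inclusion C.Ap_le a) : C.A₀) : C.F) = a from
      congrArg Subtype.val (hfid (Subalgebra.inclusion C.Ap_le a) ⟨a, rfl⟩))
  have hX : ∀ g, L (fun i => X * g i) = xA * L g := fun g => by
    simp [L, Finset.mul_sum, mul_assoc]
  refine ⟨fun i => Subalgebra.inclusion C.Ap_le (b i), d0.comp (e.symm.toLinearMap.comp fp),
    fun i => ⟨b i, rfl⟩, fun i => ?_, ?_, ?_⟩
  · have he : e.symm (b i) = Pi.single i 1 := by
      rw [LinearEquiv.symm_apply_eq]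
      show b i = ∑ j, aeval xA ((Pi.single i 1 : Fin C.d → k[X]) j) * b j
      simp [Pi.single_apply, apply_ite (aeval xA), ite_mul]
    simp only [LinearMap.comp_apply, hincl, LinearEquiv.coe_coe, he]
    ext j
    by_cases h : j = i <;> simp [d0, h]
  · rintro _ ⟨a, rfl⟩
    have h : fp (C.x₀ * Subalgebra.inclusion C.Ap_le a) = xA * a := hincl (xA * a)
    have h' : e.symm (xA * a) = fun i => X * e.symm a i := by
      rw [LinearEquiv.symm_apply_eq]
      refine Eq.trans ?_ (hX _).symm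
      rw [show L (e.symm a) = a from e.apply_symm_apply a]
    simp only [LinearMap.comp_apply, AlgHom.toLinearMap_apply, LinearEquiv.coe_coe, h, h']
    ext j
    simp [d0]
  · rintro _ ⟨a, rfl⟩
    refine ⟨Subalgebra.inclusion C.Ap_le (L fun i => (e.symm a i).divX), ⟨_, rfl⟩, ?_⟩
    simp only [LinearMap.comp_apply, AlgHom.toLinearMap_apply, LinearEquiv.coe_coe, hincl]
    have h : a = ∑ i, (e.symm a i).coeff 0 • b i + xA * L fun i => (e.symm a i).divX := by
      conv_lhs => rw [← e.apply_symm_apply a]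
      show ∑ i, aeval xA (e.symm a i) * b i = _
      simp only [L, LinearMap.coe_mk, AddHom.coe_mk, Finset.mul_sum, ← Finset.sum_add_distrib]
      refine Finset.sum_congr rfl fun i _ => ?_
      conv_lhs => rw [← X_mul_divX_add (e.symm a i)]
      simp [add_mul, mul_assoc, Algebra.smul_def, add_comm]
    conv_lhs => rw [h]
    simp only [map_add, map_sum, map_smul, map_mul]
    rfl

/-! ### Base change to a ring -/

variable (R : Type u) [CommRing R] [Algebra k R]

theorem X₀_mul_Y₀ : C.X₀ R * C.Y₀ R = 1 := by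
  rw [Model.X₀, Model.Y₀, Algebra.TensorProduct.tmul_mul_tmul, mul_one, Algebra.TensorProduct.one_def]
  congr 1
  exact Subtype.ext (mul_inv_cancel₀ C.x_ne)

theorem X₀_pow_mul_Y₀_pow (n : ℕ) : C.X₀ R ^ n * C.Y₀ R ^ n = 1 := by
  rw [← mul_pow, C.X₀_mul_Y₀, one_pow]

theorem Y₀_pow_mul_X₀_pow (n : ℕ) : C.Y₀ R ^ n * C.X₀ R ^ n = 1 := by
  rw [mul_comm, C.X₀_pow_mul_Y₀_pow]

theorem tmul_mem_Cp (r : R) {a : C.A₀} (ha : a ∈ C.subP) : r ⊗ₜ[k] a ∈ C.Cp R := by
  obtain ⟨b, rfl⟩ := ha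
  exact ⟨r ⊗ₜ b, rfl⟩

theorem X₀_mem_Cp : C.X₀ R ∈ C.Cp R := C.tmul_mem_Cp R 1 (C.mem_subP.mpr C.x_mem)

theorem tmul_mem_Cm (r : R) {a : C.A₀} (ha : a ∈ C.subM) : r ⊗ₜ[k] a ∈ C.Cm R :=
  C.swap.tmul_mem_Cp R r ha

theorem Y₀_mem_Cm : C.Y₀ R ∈ C.Cm R := C.swap.X₀_mem_Cp R

variable {R}

/-- Induction over the elements of `Cp`. -/
theorem Cp_induction {P : C.A R → Prop} {v : C.A R} (hv : v ∈ C.Cp R)
    (tmul : ∀ (r : R), ∀ a ∈ C.subP, P (r ⊗ₜ[k] a)) (add : ∀ v w, P v → P w → P (v + w)) : P v := by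
  obtain ⟨t, rfl⟩ := hv
  induction t using TensorProduct.induction_on with
  | zero => simpa using tmul 0 0 (Submodule.zero_mem _)
  | tmul r a => simpa using tmul r _ ⟨a, rfl⟩
  | add x y hx hy => rw [map_add]; exact add _ _ hx hy

theorem baseChange_apply_eq {f g : C.A₀ →ₗ[k] C.A₀} (h : ∀ a ∈ C.subP, f a = g a) {v : C.A R}
    (hv : v ∈ C.Cp R) : f.baseChange R v = g.baseChange R v :=
  C.Cp_induction (P := fun v => f.baseChange R v = g.baseChange R v) hv
    (fun r a ha => by simp [h a ha]) fun _ _ h h' => by simp [h, h']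

theorem baseChange_mem_Cp {f : C.A₀ →ₗ[k] C.A₀} (h : ∀ a, f a ∈ C.subP) (v : C.A R) :
    f.baseChange R v ∈ C.Cp R := by
  induction v using TensorProduct.induction_on with
  | zero => simp
  | tmul r a => simpa using C.tmul_mem_Cp R r (h a)
  | add x y hx hy => rw [map_add]; exact add_mem hx hy

variable (R)

/-- An `R`-linear projection of the overlap ring onto the first chart. -/
theorem exists_projCp :
    ∃ P : C.A R →ₗ[R] C.A R, (∀ v, P v ∈ C.Cp R) ∧ ∀ v ∈ C.Cp R, P v = v := by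
  obtain ⟨f, hf, hid, -⟩ := C.exists_projP
  refine ⟨f.baseChange R, C.baseChange_mem_Cp hf, fun v hv => ?_⟩
  rw [C.baseChange_apply_eq (g := LinearMap.id) hid hv, LinearMap.baseChange_id]
  rfl

/-- An `R`-linear projection onto `X₀ Cp` killing `Cm`. -/
theorem exists_sepCp : ∃ P : C.A R →ₗ[R] C.A R, (∀ v, ∃ w ∈ C.Cp R, P v = C.X₀ R * w) ∧
    (∀ w ∈ C.Cp R, P (C.X₀ R * w) = C.X₀ R * w) ∧ ∀ v ∈ C.Cm R, P v = 0 := by
  obtain ⟨f, hf, hid, hzero⟩ := exists_proj C.disjoint_subXP_subM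
  refine ⟨f.baseChange R, fun v => ?_, fun w hw => ?_, fun v hv => ?_⟩
  · induction v using TensorProduct.induction_on with
    | zero => exact ⟨0, zero_mem _, by simp⟩
    | tmul r a =>
      obtain ⟨a', ha', e⟩ := hf a
      refine ⟨r ⊗ₜ a', C.tmul_mem_Cp R r ha', ?_⟩
      rw [LinearMap.baseChange_tmul, ← e, Model.X₀, Algebra.TensorProduct.tmul_mul_tmul, one_mul]
      rfl
    | add x y hx hy =>
      obtain ⟨v, hv, ev⟩ := hx
      obtain ⟨w, hw, ew⟩ := hy
      exact ⟨v + w, add_mem hv hw, by rw [map_add, ev, ew, mul_add]⟩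
  · refine C.Cp_induction (P := fun w => f.baseChange R (C.X₀ R * w) = C.X₀ R * w) hw
      (fun r a ha => ?_) fun _ _ h h' => by simp [mul_add, h, h']
    rw [Model.X₀, Algebra.TensorProduct.tmul_mul_tmul, one_mul, LinearMap.baseChange_tmul]
    exact congrArg _ (hid _ ⟨a, ha, rfl⟩)
  · refine C.swap.Cp_induction (P := fun v => f.baseChange R v = 0) hv
      (fun r a ha => ?_) fun _ _ h h' => by simp [h, h']
    simp [hzero a ha]

theorem exists_pow_mul_mem_Cp (a : C.A R) : ∃ n : ℕ, C.X₀ R ^ n * a ∈ C.Cp R := by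
  induction a using TensorProduct.induction_on with
  | zero => exact ⟨0, by simp⟩
  | tmul r a =>
    obtain ⟨n, hn⟩ := C.exists_mul_pow_mem a a.2
    refine ⟨n, ?_⟩
    rw [Model.X₀, Algebra.TensorProduct.tmul_pow, one_pow, Algebra.TensorProduct.tmul_mul_tmul,
      one_mul]
    refine C.tmul_mem_Cp R r (C.mem_subP.mpr ?_)
    simpa [mul_comm] using hn
  | add x y hx hy =>
    obtain ⟨n, hn⟩ := hx
    obtain ⟨m, hm⟩ := hy
    refine ⟨n + m, ?_⟩
    rw [mul_add]
    refine add_mem ?_ ?_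
    · rw [add_comm, pow_add, mul_assoc]
      exact mul_mem (pow_mem (C.X₀_mem_Cp R) _) hn
    · rw [pow_add, mul_assoc]
      exact mul_mem (pow_mem (C.X₀_mem_Cp R) _) hm

theorem exists_pow_mul_mem_Cm (a : C.A R) : ∃ n : ℕ, C.Y₀ R ^ n * a ∈ C.Cm R :=
  C.swap.exists_pow_mul_mem_Cp R a

/-- Digits over `R`: a free complement of `X₀ Cp` in `Cp`. -/
theorem exists_digitsCp : ∃ (b : Fin C.d → C.A R) (c : C.A R →ₗ[R] Fin C.d → R),
    (∀ i, b i ∈ C.Cp R) ∧ (∀ i, c (b i) = Pi.single i 1) ∧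
      (∀ v ∈ C.Cp R, c (C.X₀ R * v) = 0) ∧
      ∀ v ∈ C.Cp R, ∃ w ∈ C.Cp R, v = ∑ i, c v i • b i + C.X₀ R * w := by
  classical
  obtain ⟨b, c, hb, hcb, hcx, hdec⟩ := C.exists_digits
  let cR : C.A R →ₗ[R] Fin C.d → R :=
    (TensorProduct.piScalarRight k R R (Fin C.d)).toLinearMap.comp (c.baseChange R)
  have hc : ∀ r a i, cR (r ⊗ₜ[k] a) i = c a i • r := fun r a i => by simp [cR]
  refine ⟨fun i => 1 ⊗ₜ b i, cR, fun i => C.tmul_mem_Cp R 1 (hb i), fun i => ?_, fun v hv => ?_,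
    fun v hv => ?_⟩
  · ext j
    rw [hc, hcb]
    by_cases h : j = i <;> simp [h]
  · refine C.Cp_induction (P := fun v => cR (C.X₀ R * v) = 0) hv (fun r a ha => ?_)
      fun _ _ h h' => by rw [mul_add, map_add, h, h', add_zero]
    ext i
    rw [Model.X₀, Algebra.TensorProduct.tmul_mul_tmul, one_mul, hc]
    simp [show c ((⟨C.x, C.Ap_le C.x_mem⟩ : C.A₀) * a) = 0 from hcx a ha]
  · refine C.Cp_induction (P := fun v => ∃ w ∈ C.Cp R,
      v = ∑ i, cR v i • (1 ⊗ₜ[k] b i : C.A R) + C.X₀ R * w) hv (fun r a ha => ?_) ?_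
    · obtain ⟨a', ha', e⟩ := hdec a ha
      refine ⟨r ⊗ₜ a', C.tmul_mem_Cp R r ha', ?_⟩
      conv_lhs => rw [e]
      rw [Model.X₀, Algebra.TensorProduct.tmul_mul_tmul, one_mul, TensorProduct.tmul_add,
        TensorProduct.tmul_sum]
      congr 1
      refine Finset.sum_congr rfl fun i _ => ?_
      rw [hc, TensorProduct.tmul_smul, TensorProduct.smul_tmul', TensorProduct.smul_tmul',
        smul_eq_mul, mul_one]
    · rintro v v' ⟨w, hw, e⟩ ⟨w', hw', e'⟩
      refine ⟨w + w', add_mem hw hw', ?_⟩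
      simp only [map_add, Pi.add_apply, add_smul, Finset.sum_add_distrib, mul_add]
      conv_lhs => rw [e, e']
      abel

end Model

end Fermat.Agent.RelPic
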