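import Fermat.Agent.RelPic.Complex.Frame

/-!
# Isomorphisms and base changes of triples

Base changes compose, are unique up to a unique isomorphism, and transport rigidity and degree
zero.
-/

set_option autoImplicit false
set_option synthInstance.maxHeartbeats 400000

noncomputable section

universe u

open scoped TensorProduct

namespace Fermat.Agent.RelPic

section Semilinear

variable {A A' M M' N : Type*} [CommRing A] [CommRing A'] [Algebra A A'] [AddCommGroup M]
  [Module A M] [AddCommGroup M'] [Module A' M'] [AddCommGroup N] [Module A' N]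
  [Module.Invertible A M] [Module.Invertible A' M']

/-- A semilinear map between invertible modules whose image spans is a base change: semilinear
maps out of it factor. -/
theorem exists_lift_semilinear (f : M →+ M') (hf : ∀ (a : A) v, f (a • v) = algebraMap A A' a • f v)
    (hspan : Submodule.span A' (Set.range f) = ⊤) (g : M →+ N)
    (hg : ∀ (a : A) v, g (a • v) = algebraMap A A' a • g v) :
    ∃ e : M' →ₗ[A'] N, ∀ v, e (f v) = g v := by
  let := Module.compHom M' (algebraMap A A')
  have : IsScalarTower A A' M' := IsScalarTower.of_algebraMap_smul fun _ _ => rfl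
  let := Module.compHom N (algebraMap A A')
  have : IsScalarTower A A' N := IsScalarTower.of_algebraMap_smul fun _ _ => rfl
  let f' : M →ₗ[A] M' := { f with map_smul' := hf }
  let g' : M →ₗ[A] N := { g with map_smul' := hg }
  have hsurj : Function.Surjective (f'.liftBaseChange A') := by
    rw [← LinearMap.range_eq_top, LinearMap.range_liftBaseChange]
    exact hspan
  let μ := LinearEquiv.ofBijective _ (Module.Invertible.bijective_of_surjective hsurj)
  refine ⟨g'.liftBaseChange A' ∘ₗ μ.symm.toLinearMap, fun v => ?_⟩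
  have h : μ.symm (f v) = (1 : A') ⊗ₜ[A] v := by
    rw [LinearEquiv.symm_apply_eq]
    exact ((LinearMap.liftBaseChange_tmul (A := A') f' 1 v).trans (one_smul A' _)).symm
  show g'.liftBaseChange A' (μ.symm (f v)) = g v
  rw [h, LinearMap.liftBaseChange_tmul, one_smul]
  rfl

end Semilinear

namespace Model

variable {k : Type u} [Field k] (C : Model k) {R R' R'' : Type u} [CommRing R] [Algebra k R]
  [CommRing R'] [Algebra k R'] [CommRing R''] [Algebra k R''] (φ : R →ₐ[k] R')

theorem mapA_tmul (r : R) (a : C.A₀) : C.mapA φ (r ⊗ₜ a) = φ r ⊗ₜ a := rfl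

theorem mapA_algebraMap (r : R) :
    C.mapA φ (algebraMap R (C.A R) r) = algebraMap R' (C.A R') (φ r) := rfl

theorem mapA_X₀ : C.mapA φ (C.X₀ R) = C.X₀ R' := by
  show φ (1 : R) ⊗ₜ _ = _
  rw [map_one]; rfl

theorem mapA_Y₀ : C.mapA φ (C.Y₀ R) = C.Y₀ R' := by
  show φ (1 : R) ⊗ₜ _ = _
  rw [map_one]; rfl

theorem mapA_id (v : C.A R) : C.mapA (AlgHom.id k R) v = v := by
  show Algebra.TensorProduct.map (AlgHom.id k R) (AlgHom.id k C.A₀) v = v
  rw [Algebra.TensorProduct.map_id]; rfl

theorem mapA_comp (ψ : R' →ₐ[k] R'') (v : C.A R) :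
    C.mapA (ψ.comp φ) v = C.mapA ψ (C.mapA φ v) := by
  induction v using TensorProduct.induction_on with
  | zero => simp
  | tmul r a => rfl
  | add x y hx hy => simp [hx, hy]

theorem mapA_mem_Cp {v : C.A R} (hv : v ∈ C.Cp R) : C.mapA φ v ∈ C.Cp R' :=
  C.Cp_induction (P := fun v => C.mapA φ v ∈ C.Cp R') hv
    (fun r a ha => C.tmul_mem_Cp R' (φ r) ha) fun _ _ h h' => by
      rw [map_add]; exact add_mem h h'

theorem mapA_mem_Cm {v : C.A R} (hv : v ∈ C.Cm R) : C.mapA φ v ∈ C.Cm R' :=
  C.swap.mapA_mem_Cp φ hv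

theorem evalR_mapA (Q : C.Pt) (v : C.A R) : C.evalR R' Q (C.mapA φ v) = φ (C.evalR R Q v) := by
  induction v using TensorProduct.induction_on with
  | zero => simp
  | tmul r a => simp [Model.evalR, mapA_tmul]
  | add x y hx hy => simp [hx, hy]

end Model

namespace Triple

variable {k : Type u} [Field k] {C : Model k} {R R' R'' : Type u} [CommRing R] [Algebra k R]
  [CommRing R'] [Algebra k R'] [CommRing R''] [Algebra k R'']

theorem smul_R_eq (T : Triple C R) (r : R) (v : T.M) : r • v = algebraMap R (C.A R) r • v :=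
  (algebraMap_smul (C.A R) r v).symm

namespace Equiv

variable {T T' T'' : Triple C R}

/-- The identity. -/
protected def refl (T : Triple C R) : Equiv T T where
  toEquiv := LinearEquiv.refl _ _
  mem_p _ := Iff.rfl
  mem_m _ := Iff.rfl

/-- The inverse. -/
protected def symm (e : Equiv T T') : Equiv T' T where
  toEquiv := e.toEquiv.symm
  mem_p v := by simpa using (e.mem_p (e.toEquiv.symm v)).symm
  mem_m v := by simpa using (e.mem_m (e.toEquiv.symm v)).symm

/-- The composite. -/
protected def trans (e : Equiv T T') (e' : Equiv T' T'') : Equiv T T'' where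
  toEquiv := e.toEquiv ≪≫ₗ e'.toEquiv
  mem_p v := (e.mem_p v).trans (e'.mem_p _)
  mem_m v := (e.mem_m v).trans (e'.mem_m _)

theorem map_pR (e : Equiv T T') :
    T.pR.map (e.toEquiv.restrictScalars R).toLinearMap = T'.pR := by
  refine le_antisymm ?_ fun v hv => ?_
  · rintro _ ⟨v, hv, rfl⟩
    exact (e.mem_p v).mp hv
  · exact ⟨e.toEquiv.symm v, (e.symm.mem_p v).mp hv, e.toEquiv.apply_symm_apply v⟩

theorem map_mR (e : Equiv T T') :
    T.mR.map (e.toEquiv.restrictScalars R).toLinearMap = T'.mR := by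
  refine le_antisymm ?_ fun v hv => ?_
  · rintro _ ⟨v, hv, rfl⟩
    exact (e.mem_m v).mp hv
  · exact ⟨e.toEquiv.symm v, (e.symm.mem_m v).mp hv, e.toEquiv.apply_symm_apply v⟩

/-- An isomorphism on the global sections. -/
def h0Equiv (e : Equiv T T') : T.H0 ≃ₗ[R] T'.H0 :=
  ((e.toEquiv.restrictScalars R).submoduleMap T.H0).trans (LinearEquiv.ofEq _ _ (by
    rw [Triple.H0, Triple.H0, Submodule.map_inf _ (e.toEquiv.restrictScalars R).injective, e.map_pR,
      e.map_mR]))

/-- An isomorphism on the first cohomology. -/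
def h1Equiv (e : Equiv T T') : T.H1 ≃ₗ[R] T'.H1 :=
  Submodule.Quotient.equiv _ _ (e.toEquiv.restrictScalars R) (by
    rw [Submodule.map_sup, e.map_pR, e.map_mR])

theorem deg_eq {K : Type u} [Field K] [Algebra k K] {T T' : Triple C K} (e : Equiv T T') :
    T.deg = T'.deg := by
  simp only [Triple.deg, chiOf]
  rw [e.h0Equiv.finrank_eq, e.h1Equiv.finrank_eq]

end Equiv

namespace BC

variable {φ : R →ₐ[k] R'} {ψ : R' →ₐ[k] R''} {T T₁ : Triple C R} {T' T₁' : Triple C R'}
  {T'' : Triple C R''}

theorem map_smul_base (F : BC φ T T') (r : R) (v : T.M) :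
    F.toFun (r • v) = φ r • F.toFun v := by
  rw [smul_R_eq, F.map_smul, C.mapA_algebraMap, ← smul_R_eq]

/-- The first lattice of a base change is spanned by the image. -/
theorem pR_eq (F : BC φ T T') : T'.pR = Submodule.span R' (F.toFun '' (T.p : Set T.M)) :=
  le_antisymm F.span_p (Submodule.span_le.mpr (by rintro _ ⟨v, hv, rfl⟩; exact F.map_p v hv))

/-- The second lattice of a base change is spanned by the image. -/
theorem mR_eq (F : BC φ T T') : T'.mR = Submodule.span R' (F.toFun '' (T.m : Set T.M)) :=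
  le_antisymm F.span_m (Submodule.span_le.mpr (by rintro _ ⟨v, hv, rfl⟩; exact F.map_m v hv))

/-- The image spans the overlap module. -/
theorem span_range (F : BC φ T T') : Submodule.span (C.A R') (Set.range F.toFun) = ⊤ := by
  refine eq_top_iff.mpr fun v _ => ?_
  obtain ⟨n, hn⟩ := T'.exists_pow_smul_mem_p v
  have h : C.X₀ R' ^ n • v ∈ Submodule.span (C.A R') (Set.range F.toFun) := by
    have hle : Submodule.span R' (F.toFun '' (T.p : Set T.M)) ≤
        (Submodule.span (C.A R') (Set.range F.toFun)).restrictScalars R' :=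
      Submodule.span_le.mpr ((Set.image_subset_range _ _).trans Submodule.subset_span)
    exact hle (F.span_p hn)
  rw [← T'.Y_pow_smul_X_pow_smul n v]
  exact Submodule.smul_mem _ _ h

/-- Semilinear maps out of a triple factor through its base change. -/
theorem exists_lift (F : BC φ T T') {N : Type u} [AddCommGroup N] [Module (C.A R') N]
    (g : T.M →+ N) (hg : ∀ (a : C.A R) v, g (a • v) = C.mapA φ a • g v) :
    ∃ e : T'.M →ₗ[C.A R'] N, ∀ v, e (F.toFun v) = g v := by
  let := (C.mapA φ).toRingHom.toAlgebra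
  have := T.invertible
  have := T'.invertible
  exact exists_lift_semilinear (A := C.A R) (A' := C.A R') F.toFun F.map_smul F.span_range g hg

theorem hom_ext (F : BC φ T T') {N : Type u} [AddCommGroup N] [Module (C.A R') N]
    {f g : T'.M →ₗ[C.A R'] N} (h : ∀ v, f (F.toFun v) = g (F.toFun v)) : f = g :=
  LinearMap.ext_on_range F.span_range h

/-- A triple is its own base change along the identity. -/
protected def refl (T : Triple C R) : BC (AlgHom.id k R) T T where
  toFun := AddMonoidHom.id _
  map_smul a v := by rw [C.mapA_id]; rfl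
  map_p _ h := h
  map_m _ h := h
  span_p v hv := Submodule.subset_span ⟨v, hv, rfl⟩
  span_m v hv := Submodule.subset_span ⟨v, hv, rfl⟩

/-- An isomorphism is a base change along the identity. -/
def ofEquiv (e : Equiv T T₁) : BC (AlgHom.id k R) T T₁ where
  toFun := e.toEquiv.toLinearMap.toAddMonoidHom
  map_smul a v := by rw [C.mapA_id]; exact _root_.map_smul e.toEquiv a v
  map_p v h := (e.mem_p v).mp h
  map_m v h := (e.mem_m v).mp h
  span_p v hv := Submodule.subset_span ⟨e.toEquiv.symm v, (e.symm.mem_p v).mp hv,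
    e.toEquiv.apply_symm_apply v⟩
  span_m v hv := Submodule.subset_span ⟨e.toEquiv.symm v, (e.symm.mem_m v).mp hv,
    e.toEquiv.apply_symm_apply v⟩

theorem span_image_le (F : BC φ T T') (G : BC ψ T' T'') {S : Set T.M} {P : Submodule R' T'.M}
    (hP : P ≤ Submodule.span R' (F.toFun '' S)) :
    Submodule.span R'' (G.toFun '' (P : Set T'.M)) ≤
      Submodule.span R'' ((G.toFun.comp F.toFun) '' S) := by
  refine Submodule.span_le.mpr ?_
  rintro _ ⟨v, hv, rfl⟩
  refine Submodule.span_induction
    (p := fun v _ => G.toFun v ∈ Submodule.span R'' ((G.toFun.comp F.toFun) '' S)) ?_ ?_ ?_ ?_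
    (hP hv)
  · rintro _ ⟨w, hw, rfl⟩
    exact Submodule.subset_span ⟨w, hw, rfl⟩
  · rw [map_zero]; exact zero_mem _
  · intro x y _ _ hx hy
    rw [map_add]; exact add_mem hx hy
  · intro r x _ hx
    rw [G.map_smul_base]; exact Submodule.smul_mem _ _ hx

/-- Base changes compose. -/
def comp (F : BC φ T T') (G : BC ψ T' T'') : BC (ψ.comp φ) T T'' where
  toFun := G.toFun.comp F.toFun
  map_smul a v := by
    rw [AddMonoidHom.comp_apply, F.map_smul, G.map_smul, C.mapA_comp]; rfl
  map_p v h := G.map_p _ (F.map_p v h)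
  map_m v h := G.map_m _ (F.map_m v h)
  span_p := le_trans G.span_p
    (F.span_image_le G (S := (T.p : Set T.M)) (P := T'.pR) F.span_p)
  span_m := le_trans G.span_m
    (F.span_image_le G (S := (T.m : Set T.M)) (P := T'.mR) F.span_m)

/-- A base change followed by an isomorphism. -/
def congr_right (F : BC φ T T') (e : Equiv T' T₁') : BC φ T T₁' :=
  (AlgHom.id_comp φ) ▸ F.comp (ofEquiv e)

/-- An isomorphism followed by a base change. -/
def congr_left (e : Equiv T₁ T) (F : BC φ T T') : BC φ T₁ T' :=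
  (AlgHom.comp_id φ) ▸ (ofEquiv e).comp F

/-- Two base changes along one map are isomorphic, compatibly. -/
theorem exists_equiv (F : BC φ T T') (G : BC φ T T₁') :
    ∃ e : Equiv T' T₁', ∀ v, e.toEquiv (F.toFun v) = G.toFun v := by
  obtain ⟨e, he⟩ := F.exists_lift G.toFun G.map_smul
  obtain ⟨e', he'⟩ := G.exists_lift F.toFun F.map_smul
  have h1 : e' ∘ₗ e = LinearMap.id := F.hom_ext fun v => by simp [he, he']
  have h2 : e ∘ₗ e' = LinearMap.id := G.hom_ext fun v => by simp [he, he']
  let E : T'.M ≃ₗ[C.A R'] T₁'.M := LinearEquiv.ofLinearMap e e' h2 h1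
  have key : ∀ (S : Set T.M), (Submodule.span R' (F.toFun '' S)).map (e.restrictScalars R') =
      Submodule.span R' (G.toFun '' S) := fun S => by
    rw [Submodule.map_span, ← Set.image_comp]
    congr 1
    exact Set.image_congr' he
  have hmem : ∀ {P : Submodule R' T'.M} {P' : Submodule R' T₁'.M},
      P.map (e.restrictScalars R') = P' → ∀ v, v ∈ P ↔ E v ∈ P' := fun {P P'} h v =>
    ⟨fun hv => h ▸ ⟨v, hv, rfl⟩, fun hv => by
      obtain ⟨w, hw, hwv⟩ := h ▸ hv
      rwa [← E.injective hwv]⟩
  refine ⟨⟨E, hmem (P := T'.pR) (P' := T₁'.pR) ?_, hmem (P := T'.mR) (P' := T₁'.mR) ?_⟩, he⟩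
  · rw [F.pR_eq, G.pR_eq, key]
  · rw [F.mR_eq, G.mR_eq, key]

theorem nonempty_equiv (F : BC φ T T') (G : BC φ T T₁') : Nonempty (Equiv T' T₁') :=
  ⟨(F.exists_equiv G).choose⟩

/-- Base change along the identity is isomorphism. -/
theorem nonempty_iff_equiv : Nonempty (BC (AlgHom.id k R) T T₁) ↔ Nonempty (Equiv T T₁) :=
  ⟨fun ⟨F⟩ => (BC.refl T).nonempty_equiv F, fun ⟨e⟩ => ⟨ofEquiv e⟩⟩

theorem isRigid (F : BC φ T T') {e : C.Pt} (h : T.IsRigid e) : T'.IsRigid e := by
  obtain ⟨r, hr, hsurj⟩ := h
  let : Module (C.A R') R' := Module.compHom R' (C.evalR R' e).toRingHom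
  obtain ⟨r', hr'⟩ := F.exists_lift (N := R') (φ.toAddMonoidHom.comp r.toAddMonoidHom) fun a v => by
    show φ (r (a • v)) = C.evalR R' e (C.mapA φ a) * φ (r v)
    rw [hr, map_mul, C.evalR_mapA]
  have hsm : ∀ (a : C.A R') v, r' (a • v) = C.evalR R' e a * r' v := fun a v => _root_.map_smul r' a v
  have hR : ∀ (s : R') v, r' (s • v) = s * r' v := fun s v => by
    rw [smul_R_eq, hsm, AlgHom.commutes]; rfl
  refine ⟨{ toFun := r', map_add' := _root_.map_add r', map_smul' := fun s v => hR s v }, hsm, fun s => ?_⟩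
  obtain ⟨v, hv⟩ := hsurj 1
  refine ⟨s • F.toFun v, (hR s _).trans ?_⟩
  rw [hr']
  show s * φ (r v) = s
  rw [hv, map_one, mul_one]

theorem isDegZero (F : BC φ T T') (h : T.IsDegZero) : T'.IsDegZero :=
  fun K _ _ χ S ⟨G⟩ => h K (χ.comp φ) S ⟨F.comp G⟩

end BC

end Triple

end Fermat.Agent.RelPic
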