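import Fermat.Agent.RelPic.Complex.Cohomology

/-!
# Degree and twists

Twisting the second lattice by `x ^ n` adds `n * d` to the Euler characteristic over a field; hence
the degree is locally constant on the base.
-/

set_option autoImplicit false
set_option synthInstance.maxHeartbeats 400000
set_option maxHeartbeats 1600000

noncomputable section

universe u

open scoped TensorProduct

attribute [local instance 2000] Submodule.module Submodule.addCommGroup Submodule.addCommMonoid
attribute [-instance] LieRinehartAlgebra.toIsScalarTower NormedAlgebra.toAlgebra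
  Subalgebra.normedCommRing Subalgebra.seminormedCommRing Subalgebra.normedRing
  Subalgebra.seminormedRing Subalgebra.toRing LinearMap.instLoewnerPartialOrder

namespace Fermat.Agent.RelPic

/-- An invertible module modulo an ideal with finite dimensional quotient is the quotient ring. -/
theorem exists_equiv_quotient_smul {K B N : Type u} [Field K] [CommRing B] [Algebra K B]
    [AddCommGroup N] [Module B N] [Module K N] [IsScalarTower K B N] [Module.Invertible B N]
    (I : Ideal B) [Module.Finite K (B ⧸ I)] :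
    Nonempty ((N ⧸ (I • (⊤ : Submodule B N)).restrictScalars K) ≃ₗ[K] B ⧸ I) := by
  have : IsArtinianRing (B ⧸ I) := isArtinian_of_tower K inferInstance
  have hfree : Module.Free (B ⧸ I) ((B ⧸ I) ⊗[B] N) := inferInstance
  obtain ⟨e⟩ := Module.Invertible.free_iff_linearEquiv.mp hfree
  exact ⟨(Submodule.Quotient.restrictScalarsEquiv K (I • (⊤ : Submodule B N))).trans
    (((TensorProduct.quotTensorEquivQuotSMul N I).symm.restrictScalars K).trans
      (e.restrictScalars K))⟩

namespace Model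

variable {k : Type u} [Field k] (C : Model k) (K : Type u) [Field K] [Algebra k K]

/-- The coordinate as a function on the first chart. -/
abbrev xCp : C.Cp K := ⟨C.X₀ K, C.X₀_mem_Cp K⟩

/-- The ring structure of the first chart, as a shortcut. -/
@[reducible] def commRingCp : CommRing (C.Cp K) := (C.Cp K).toCommRing

attribute [local instance] commRingCp

theorem finrank_quotient_xCp :
    Module.Finite K (C.Cp K ⧸ Ideal.span {C.xCp K}) ∧
      Module.finrank K (C.Cp K ⧸ Ideal.span {C.xCp K}) = C.d := by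
  classical
  obtain ⟨b, c, hb, hcb, hcx, hdec⟩ := C.exists_digitsCp K
  let I : Ideal (C.Cp K) := Ideal.span {C.xCp K}
  let g : (Fin C.d → K) →ₗ[K] C.Cp K ⧸ I :=
    (Ideal.Quotient.mkₐ K I).toLinearMap ∘ₗ
      Fintype.linearCombination K fun i => (⟨b i, hb i⟩ : C.Cp K)
  have hval : ∀ f : Fin C.d → K,
      ((Fintype.linearCombination K (fun i => (⟨b i, hb i⟩ : C.Cp K)) f : C.Cp K) : C.A K) =
        ∑ i, f i • b i := fun f => by
    simp [Fintype.linearCombination_apply]
  have hbij : Function.Bijective g := by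
    refine ⟨(injective_iff_map_eq_zero _).mpr fun f hf => ?_, fun x => ?_⟩
    · obtain ⟨z, hz⟩ := Ideal.mem_span_singleton'.mp (Ideal.Quotient.eq_zero_iff_mem.mp hf)
      have h1 := congrArg (fun v : C.Cp K => c (v : C.A K)) hz
      simp only [MulMemClass.coe_mul, hval, map_sum, map_smul, hcb] at h1
      rw [mul_comm, hcx _ z.2] at h1
      funext j
      simpa [Pi.single_apply] using (congrFun h1 j).symm
    · obtain ⟨v, rfl⟩ := Ideal.Quotient.mk_surjective x
      obtain ⟨w, hw, e⟩ := hdec v v.2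
      refine ⟨c v, Ideal.Quotient.eq.mpr (Ideal.mem_span_singleton'.mpr ⟨⟨-w, neg_mem hw⟩, ?_⟩)⟩
      refine Subtype.ext ?_
      show -w * C.X₀ K = ((Fintype.linearCombination K
        (fun i => (⟨b i, hb i⟩ : C.Cp K)) (c v) : C.Cp K) : C.A K) - v
      rw [hval]
      conv_rhs => enter [2]; rw [e]
      ring
  let e := LinearEquiv.ofBijective g hbij
  exact ⟨Module.Finite.equiv e, by rw [← e.finrank_eq, Module.finrank_fin_fun]⟩

end Model

namespace Triple

variable {k : Type u} [Field k] {C : Model k} {R R' : Type u} [CommRing R] [Algebra k R]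
  [CommRing R'] [Algebra k R'] (T : Triple C R)

/-- The triple with second lattice multiplied by `x ^ n`. -/
def shift (n : ℕ) : Triple C R where
  M := T.M
  p := T.p
  m := T.m.map ((LinearMap.lsmul (C.A R) T.M (C.X₀ R ^ n)).restrictScalars (C.Cm R))
  inv_p := T.inv_p
  inv_m := by
    have := T.inv_m
    refine Module.Invertible.congr (Submodule.equivMapOfInjective _ (fun v w h => ?_) T.m)
    have h' := congrArg (fun x => C.Y₀ R ^ n • x) h
    simpa [smul_smul, C.Y₀_pow_mul_X₀_pow] using h'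
  exists_pow_smul_mem_p := T.exists_pow_smul_mem_p
  exists_pow_smul_mem_m v := by
    obtain ⟨l, hl⟩ := T.exists_pow_smul_mem_m (C.Y₀ R ^ n • v)
    refine ⟨l, C.Y₀ R ^ l • C.Y₀ R ^ n • v, hl, ?_⟩
    show C.X₀ R ^ n • C.Y₀ R ^ l • C.Y₀ R ^ n • v = _
    rw [smul_comm (C.X₀ R ^ n), T.X_pow_smul_Y_pow_smul]

theorem mShift_zero : Idx.mShift T 0 = T.mR := by
  refine le_antisymm ?_ fun v hv => ⟨v, hv, by simp⟩
  rintro _ ⟨v, hv, rfl⟩
  simpa using hv

theorem mShift_le_succ (n : ℕ) : Idx.mShift T n ≤ Idx.mShift T (n + 1) := by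
  rintro _ ⟨v, hv, rfl⟩
  refine ⟨_, T.Y_pow_smul_mem_m (n := 1) hv, ?_⟩
  show C.X₀ R ^ (n + 1) • C.Y₀ R ^ 1 • v = C.X₀ R ^ n • v
  rw [pow_succ, mul_smul, ← pow_one (C.X₀ R), T.X_pow_smul_Y_pow_smul, pow_one]

/-- Twisting commutes with base change. -/
def BC.shift {φ : R →ₐ[k] R'} {T} {T' : Triple C R'} (F : BC φ T T') (n : ℕ) :
    BC φ (T.shift n) (T'.shift n) where
  toFun := F.toFun
  map_smul := F.map_smul
  map_p := F.map_p
  map_m := by
    rintro _ ⟨v, hv, rfl⟩
    refine ⟨F.toFun v, F.map_m v hv, ?_⟩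
    show C.X₀ R' ^ n • F.toFun v = F.toFun (C.X₀ R ^ n • v)
    rw [F.map_smul, map_pow, C.mapA_X₀]
  span_p := F.span_p
  span_m := by
    rintro _ ⟨w, hw, rfl⟩
    refine Submodule.span_induction (p := fun x _ => C.X₀ R' ^ n • x ∈
      Submodule.span R' (F.toFun '' (Idx.mShift T n : Set T.M))) ?_ ?_ ?_ ?_ (F.span_m hw)
    · rintro _ ⟨v, hv, rfl⟩
      refine Submodule.subset_span ⟨C.X₀ R ^ n • v, ⟨v, hv, rfl⟩, ?_⟩
      rw [F.map_smul, map_pow, C.mapA_X₀]
    · rw [smul_zero]; exact zero_mem _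
    · intro x y _ _ hx hy; rw [smul_add]; exact add_mem hx hy
    · intro r x _ hx; rw [smul_comm]; exact Submodule.smul_mem _ _ hx

section Field

attribute [local instance] Model.commRingCp

variable {K : Type u} [Field K] [Algebra k K] (S : Triple C K)

/-- The first lattice modulo the coordinate has dimension `d`. -/
theorem finrank_quotient_pR :
    Module.Finite K (S.pR ⧸ (S.pR.map (S.mulX 1)).comap S.pR.subtype) ∧
      Module.finrank K (S.pR ⧸ (S.pR.map (S.mulX 1)).comap S.pR.subtype) = C.d := by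
  obtain ⟨hfin, hrank⟩ := C.finrank_quotient_xCp K
  let I : Ideal (C.Cp K) := Ideal.span {C.xCp K}
  have : Module.Finite K (C.Cp K ⧸ I) := hfin
  have := S.inv_p
  obtain ⟨e⟩ := exists_equiv_quotient_smul (K := K) (B := C.Cp K) (N := S.p) I
  let e₀ : S.pR ≃ₗ[K] S.p :=
    { toFun := fun v => ⟨v.1, v.2⟩
      invFun := fun v => ⟨v.1, v.2⟩
      left_inv := fun _ => rfl
      right_inv := fun _ => rfl
      map_add' := fun _ _ => rfl
      map_smul' := fun _ _ => rfl }
  have hsub : ((S.pR.map (S.mulX 1)).comap S.pR.subtype).map e₀.toLinearMap =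
      (I • (⊤ : Submodule (C.Cp K) S.p)).restrictScalars K := by
    refine le_antisymm ?_ fun v hv => ?_
    · rintro _ ⟨v, ⟨w, hw, hwv⟩, rfl⟩
      rw [Submodule.restrictScalars_mem, Submodule.ideal_span_singleton_smul]
      refine ⟨⟨w, hw⟩, Submodule.mem_top, Subtype.ext ?_⟩
      show C.X₀ K • w = (v : S.M)
      exact (congrArg (· • w) (pow_one (C.X₀ K))).symm.trans hwv
    · rw [Submodule.restrictScalars_mem, Submodule.ideal_span_singleton_smul] at hv
      obtain ⟨w, -, hwv⟩ := hv
      refine ⟨⟨v.1, v.2⟩, ⟨w, w.2, ?_⟩, rfl⟩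
      show C.X₀ K ^ 1 • (w : S.M) = (v : S.M)
      rw [pow_one, ← hwv]
      rfl
  let E : (S.pR ⧸ (S.pR.map (S.mulX 1)).comap S.pR.subtype) ≃ₗ[K] C.Cp K ⧸ I :=
    (Submodule.Quotient.equiv _ _ e₀ hsub).trans e
  exact ⟨Module.Finite.equiv E.symm, E.finrank_eq.trans hrank⟩

/-- The second lattice modulo the inverse coordinate has dimension `d`. -/
theorem finrank_quotient_mR :
    Module.Finite K (S.mR ⧸ (S.mR.map (S.mulY 1)).comap S.mR.subtype) ∧
      Module.finrank K (S.mR ⧸ (S.mR.map (S.mulY 1)).comap S.mR.subtype) = C.d :=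
  S.swap.finrank_quotient_pR

theorem finrank_mShift_succ (n : ℕ) :
    Module.Finite K (Idx.mShift S (n + 1) ⧸
        (Idx.mShift S n).comap (Idx.mShift S (n + 1)).subtype) ∧
      Module.finrank K (Idx.mShift S (n + 1) ⧸
        (Idx.mShift S n).comap (Idx.mShift S (n + 1)).subtype) = C.d := by
  have hinj : Function.Injective (S.mulX (n + 1)) := fun v w h => by
    have h' := congrArg (fun x => C.Y₀ K ^ (n + 1) • x) h
    simpa [smul_smul, C.Y₀_pow_mul_X₀_pow] using h'
  let e : S.mR ≃ₗ[K] Idx.mShift S (n + 1) := Submodule.equivMapOfInjective _ hinj S.mR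
  have hstep : ∀ v : S.M, C.X₀ K ^ (n + 1) • C.Y₀ K ^ 1 • v = C.X₀ K ^ n • v := fun v => by
    rw [pow_succ, mul_smul, ← pow_one (C.X₀ K), S.X_pow_smul_Y_pow_smul, pow_one]
  have hmap : ((S.mR.map (S.mulY 1)).comap S.mR.subtype).map e.toLinearMap =
      (Idx.mShift S n).comap (Idx.mShift S (n + 1)).subtype := by
    refine le_antisymm ?_ fun x hx => ?_
    · rintro _ ⟨v, ⟨w, hw, hwv⟩, rfl⟩
      refine ⟨w, hw, ?_⟩
      show C.X₀ K ^ n • w = C.X₀ K ^ (n + 1) • (v : S.M)
      rw [show (v : S.M) = C.Y₀ K ^ 1 • w from hwv.symm, hstep]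
    · obtain ⟨w, hw, hwx⟩ := hx
      refine ⟨⟨_, S.Y_pow_smul_mem_m (n := 1) hw⟩, ⟨w, hw, rfl⟩, Subtype.ext ?_⟩
      exact (hstep w).trans hwx
  let E := Submodule.Quotient.equiv _ _ e hmap
  have := S.finrank_quotient_mR.1
  exact ⟨Module.Finite.equiv E, E.finrank_eq.symm.trans S.finrank_quotient_mR.2⟩

/-- Twisting by `x ^ n` adds `n * d` to the degree. -/
theorem deg_shift (n : ℕ) : (S.shift n).deg = S.deg + C.d * n := by
  induction n with
  | zero =>
    show chiOf S.pR (Idx.mShift S 0) - C.chi₀ = chiOf S.pR S.mR - C.chi₀ + C.d * ((0 : ℕ) : ℤ)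
    rw [S.mShift_zero]; simp
  | succ n ih =>
    have : Module.Finite K ↥(S.pR ⊓ Idx.mShift S (n + 1)) := (S.shift (n + 1)).finite_H0
    have : Module.Finite K (S.M ⧸ (S.pR ⊔ Idx.mShift S n)) := (S.shift n).finite_H1
    have := (S.finrank_mShift_succ n).1
    have h := chiOf_mono_right (p := S.pR) (S.mShift_le_succ n)
    rw [(S.finrank_mShift_succ n).2] at h
    show chiOf S.pR (Idx.mShift S (n + 1)) - C.chi₀ = _
    rw [h]
    change chiOf S.pR (Idx.mShift S n) - C.chi₀ = _ at ih
    push_cast at ih ⊢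
    linarith

end Field

/-- The degree is a locally constant function on the base. -/
theorem exists_isLocallyConstant_deg : ∃ f : PrimeSpectrum R → ℤ, IsLocallyConstant f ∧
    ∀ (K : Type u) [Field K] [Algebra k K] (φ : R →ₐ[k] K) (T' : Triple C K), BC φ T T' →
      T'.deg = f ⟨RingHom.ker φ.toRingHom, RingHom.ker_isPrime _⟩ := by
  obtain ⟨n, hn⟩ := T.exists_twist_eq_top
  have htop : (T.shift n).pR ⊔ (T.shift n).mR = ⊤ := hn n le_rfl
  obtain ⟨hfin, hproj⟩ := (T.shift n).finite_projective_H0 htop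
  have := Module.finitePresentation_of_projective R (T.shift n).H0
  refine ⟨fun q => (Module.rankAtStalk (R := R) (T.shift n).H0 q : ℤ) - C.chi₀ - C.d * n,
    (Module.isLocallyConstant_rankAtStalk (R := R) (M := (T.shift n).H0)).comp
      fun r => (r : ℤ) - C.chi₀ - C.d * n, fun K _ _ φ T' F => ?_⟩
  let : Algebra R K := φ.toRingHom.toAlgebra
  have : IsScalarTower k R K := IsScalarTower.of_algebraMap_eq fun x => (φ.commutes x).symm
  have hφ : φ = IsScalarTower.toAlgHom k R K := AlgHom.ext fun _ => rfl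
  replace F : BC (IsScalarTower.toAlgHom k R K) T T' := hφ ▸ F
  obtain ⟨e, -⟩ := (F.shift n).exists_equiv_H0 htop
  have h1 : Subsingleton (T'.shift n).H1 :=
    Submodule.Quotient.subsingleton_iff.mpr ((F.shift n).sup_eq_top htop)
  have hrank : (Module.rankAtStalk (R := R) (T.shift n).H0
      ⟨RingHom.ker φ.toRingHom, RingHom.ker_isPrime _⟩ : ℤ) =
      Module.finrank K (T'.shift n).H0 := by
    have hq : (⟨RingHom.ker φ.toRingHom, RingHom.ker_isPrime _⟩ : PrimeSpectrum R) =
        PrimeSpectrum.comap (algebraMap R K) ⟨⊥, Ideal.isPrime_bot⟩ :=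
      PrimeSpectrum.ext rfl
    rw [hq, ← Module.rankAtStalk_baseChange (S := K), Module.rankAtStalk_eq_finrank_of_free,
      e.finrank_eq]
    rfl
  have h := T'.deg_shift n
  rw [Triple.deg, chiOf, Module.finrank_zero_of_subsingleton (M := (T'.shift n).H1)] at h
  beta_reduce
  rw [hrank]
  simp only [Nat.cast_zero, sub_zero] at h
  linarith

end Triple

end Fermat.Agent.RelPic
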