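import Fermat.Agent.RelPic.Complex.Ring

/-!
# Frames of a triple

The first lattice is a direct summand of a free module, compatibly with the overlap; consequences:
retractions, a separation map, finiteness and projectivity.
-/

set_option autoImplicit false

noncomputable section

universe u

open scoped TensorProduct

namespace Fermat.Agent.RelPic

attribute [local instance high] Submodule.module Submodule.addCommMonoid Submodule.smul
-- dead ends of the instance search in this file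
attribute [-instance] NormedAlgebra.toAlgebra LieRinehartAlgebra.toIsScalarTower
  Submodule.IsLattice.finite

namespace Triple

variable {k : Type u} [Field k] {C : Model k} {R : Type u} [CommRing R] [Algebra k R]
  (T : Triple C R)

/-- The triple with the two charts exchanged. -/
abbrev swap : Triple C.swap R where
  M := T.M
  instAdd := T.instAdd
  instModA := T.instModA
  instModR := T.instModR
  instTower := T.instTower
  p := T.m
  m := T.p
  inv_p := T.inv_m
  inv_m := T.inv_p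
  exists_pow_smul_mem_p := T.exists_pow_smul_mem_m
  exists_pow_smul_mem_m := fun v => by rw [C.swap_Y₀]; exact T.exists_pow_smul_mem_p v

theorem swap_pR : T.swap.pR = T.mR := rfl

theorem swap_mR : T.swap.mR = T.pR := rfl

theorem smul_mem_p {a : C.A R} (ha : a ∈ C.Cp R) {v : T.M} (hv : v ∈ T.p) : a • v ∈ T.p :=
  T.p.smul_mem ⟨a, ha⟩ hv

theorem smul_mem_m {a : C.A R} (ha : a ∈ C.Cm R) {v : T.M} (hv : v ∈ T.m) : a • v ∈ T.m :=
  T.m.smul_mem ⟨a, ha⟩ hv

theorem X_pow_smul_Y_pow_smul (n : ℕ) (v : T.M) : C.X₀ R ^ n • C.Y₀ R ^ n • v = v := by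
  rw [smul_smul, C.X₀_pow_mul_Y₀_pow, one_smul]

theorem Y_pow_smul_X_pow_smul (n : ℕ) (v : T.M) : C.Y₀ R ^ n • C.X₀ R ^ n • v = v := by
  rw [smul_smul, C.Y₀_pow_mul_X₀_pow, one_smul]

theorem X_pow_smul_mem_p {n : ℕ} {v : T.M} (hv : v ∈ T.p) : C.X₀ R ^ n • v ∈ T.p :=
  T.smul_mem_p (pow_mem (C.X₀_mem_Cp R) n) hv

theorem Y_pow_smul_mem_m {n : ℕ} {v : T.M} (hv : v ∈ T.m) : C.Y₀ R ^ n • v ∈ T.m :=
  T.smul_mem_m (pow_mem (C.Y₀_mem_Cm R) n) hv

section Abstract

variable {A : Type u} [CommRing A] [Algebra R A] {B : Subalgebra R A} {M : Type u} [AddCommGroup M]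
  [Module A M] {p : Submodule B M}

omit [Algebra k R] in
theorem exists_frame_aux [Module.Finite B p] [Module.Projective B p] {X Y : A}
    (hXY : X * Y = 1) (hXB : X ∈ B) (hA : ∀ a : A, ∃ n : ℕ, X ^ n * a ∈ B)
    (hexp : ∀ v : M, ∃ n : ℕ, X ^ n • v ∈ p) :
    ∃ (N : ℕ) (g : Fin N → M) (S : M →ₗ[A] Fin N → A),
      (∀ i, g i ∈ p) ∧ (∀ v, ∑ i, S v i • g i = v) ∧ ∀ v ∈ p, ∀ i, S v i ∈ B := by
  have hYX : ∀ j, Y ^ j * X ^ j = 1 := fun j => by rw [← mul_pow, mul_comm Y, hXY, one_pow]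
  have hXp : ∀ {n : ℕ} {v : M}, v ∈ p → X ^ n • v ∈ p := fun {n v} hv =>
    p.smul_mem (⟨X ^ n, pow_mem hXB n⟩ : B) hv
  classical
  obtain ⟨N, π, hπ⟩ := Module.Finite.exists_fin' (B) p
  obtain ⟨s, hs⟩ := π.exists_rightInverse_of_surjective (LinearMap.range_eq_top.mpr hπ)
  let g : Fin N → M := fun i => (π (Pi.single i 1) : M)
  have hsum : ∀ v : p, ∑ i, ((s v i : B) : A) • g i = (v : M) := fun v => by
    conv_rhs => rw [← show π (s v) = v from LinearMap.congr_fun hs v,
      pi_eq_sum_univ' (s v), map_sum]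
    simp only [map_smul, Submodule.coe_sum, Submodule.coe_smul, Subalgebra.smul_def]
    rfl
  choose n hn using hexp
  let S₀ : M → Fin N → A := fun v i => Y ^ n v * (s ⟨_, hn v⟩ i : A)
  have hind : ∀ (v : M) (j : ℕ) (h : X ^ j • v ∈ p) (i : Fin N),
      S₀ v i = Y ^ j * (s ⟨_, h⟩ i : A) := by
    have key : ∀ (v : M) (j l : ℕ) (h : X ^ j • v ∈ p)
        (h' : X ^ (l + j) • v ∈ p) (i : Fin N),
        Y ^ (l + j) * (s ⟨_, h'⟩ i : A) = Y ^ j * (s ⟨_, h⟩ i : A) := by
      intro v j l h h' i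
      have e : (⟨_, h'⟩ : p) =
          (⟨X ^ l, pow_mem (hXB) l⟩ : B) • (⟨_, h⟩ : p) :=
        Subtype.ext (by
          show X ^ (l + j) • v = X ^ l • X ^ j • v
          rw [pow_add, mul_smul])
      rw [e, map_smul, Pi.smul_apply, smul_eq_mul, MulMemClass.coe_mul, pow_add, mul_mul_mul_comm,
        hYX, one_mul]
    intro v j h i
    have h1 : X ^ (j + n v) • v ∈ p := by
      rw [pow_add, mul_smul]; exact hXp (hn v)
    have h2 : X ^ (n v + j) • v ∈ p := by rwa [add_comm]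
    refine (key v (n v) j (hn v) h1 i).symm.trans ?_
    rw [← key v j (n v) h h2 i]
    have e : (⟨_, h1⟩ : p) = ⟨_, h2⟩ := Subtype.ext (show X ^ (j + n v) • v = X ^ (n v + j) • v by rw [add_comm])
    rw [e, add_comm j (n v)]
  refine ⟨N, g, ⟨⟨S₀, fun v w => funext fun i => ?_⟩, fun a v => funext fun i => ?_⟩, fun i => (π _).2, fun v => ?_, fun v hv i => ?_⟩
  · have hv : X ^ (n v + n w) • v ∈ p := by
      rw [add_comm, pow_add, mul_smul]; exact hXp (hn v)
    have hw : X ^ (n v + n w) • w ∈ p := by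
      rw [pow_add, mul_smul]; exact hXp (hn w)
    have hvw : X ^ (n v + n w) • (v + w) ∈ p := by rw [smul_add]; exact add_mem hv hw
    have e : (⟨_, hvw⟩ : p) = ⟨_, hv⟩ + ⟨_, hw⟩ := Subtype.ext (smul_add _ _ _)
    rw [hind _ _ hvw, Pi.add_apply, hind v _ hv, hind w _ hw, e, map_add, Pi.add_apply,
      AddMemClass.coe_add, mul_add]
  · obtain ⟨j, hj⟩ := hA a
    have hav : X ^ (j + n v) • a • v ∈ p := by
      rw [pow_add, smul_smul, mul_right_comm, mul_smul]
      exact p.smul_mem (⟨_, hj⟩ : B) (hn v)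
    have e : (⟨_, hav⟩ : p) = (⟨_, hj⟩ : B) • (⟨_, hn v⟩ : p) := Subtype.ext (by
      show X ^ (j + n v) • a • v = (X ^ j * a) • X ^ n v • v
      rw [pow_add, smul_smul, smul_smul, mul_right_comm])
    show S₀ (a • v) i = a * S₀ v i
    rw [hind _ _ hav, e, map_smul, Pi.smul_apply, smul_eq_mul, MulMemClass.coe_mul]
    show Y ^ (j + n v) * (X ^ j * a * (s ⟨_, hn v⟩ i : A)) = a * S₀ v i
    rw [pow_add]
    have := hYX j
    linear_combination (a * Y ^ n v * (s ⟨_, hn v⟩ i : A)) * this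
  · show ∑ i, (Y ^ n v * (s ⟨_, hn v⟩ i : A)) • g i = v
    simp only [mul_smul, ← Finset.smul_sum]
    rw [hsum, smul_smul, hYX, one_smul]
  · have h : X ^ 0 • v ∈ p := by rwa [pow_zero, one_smul]
    show S₀ v i ∈ _
    rw [hind v 0 h, pow_zero, one_mul]
    exact (s _ i).2

omit [Algebra k R] in
theorem invertible_aux [Module.Invertible B p] {N : ℕ} {g : Fin N → M} {S : M →ₗ[A] Fin N → A}
    (hg : ∀ i, g i ∈ p) (hsum : ∀ v, ∑ i, S v i • g i = v) (hS : ∀ v ∈ p, ∀ i, S v i ∈ B) :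
    Module.Invertible A M := by
  let μ : A ⊗[B] p →ₗ[A] M := TensorProduct.AlgebraTensorModule.lift
    { toFun := fun a =>
        { toFun := fun w => a • (w : M)
          map_add' := fun w w' => by simp
          map_smul' := fun c w => by
            show a • (c : A) • (w : M) = (c : A) • a • (w : M)
            rw [smul_comm] }
      map_add' := fun a a' => LinearMap.ext fun w => add_smul _ _ _
      map_smul' := fun a a' => LinearMap.ext fun w => by
        show (a * a') • (w : M) = a • a' • (w : M)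
        rw [mul_smul] }
  refine Module.Invertible.congr (LinearEquiv.ofBijective μ ⟨?_, fun v => ⟨∑ i, S v i ⊗ₜ ⟨g i, hg i⟩, ?_⟩⟩)
  · refine Function.LeftInverse.injective (g := fun v => ∑ i, S v i ⊗ₜ[B] ⟨g i, hg i⟩) ?_
    intro t
    induction t using TensorProduct.induction_on with
    | zero => simp
    | tmul a w =>
      show ∑ i, S (a • (w : M)) i ⊗ₜ[B] (⟨g i, hg i⟩ : p) = a ⊗ₜ w
      have e : ∀ i, S (a • (w : M)) i = (⟨S w i, hS w w.2 i⟩ : B) • a := fun i => by
        rw [map_smul, Pi.smul_apply, smul_eq_mul, Subalgebra.smul_def, smul_eq_mul, mul_comm]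
      simp only [e, TensorProduct.smul_tmul, ← TensorProduct.tmul_sum]
      congr 1
      refine Subtype.ext ?_
      simp only [Submodule.coe_sum, Submodule.coe_smul, Subalgebra.smul_def]
      exact hsum w
    | add x y hx hy =>
      simp only [map_add, Pi.add_apply, TensorProduct.add_tmul, Finset.sum_add_distrib] at hx hy ⊢
      rw [hx, hy]
  · rw [map_sum]
    exact hsum v

omit [Algebra k R] in
theorem mem_of_span_aux {ι : Type*} [Fintype ι] {N : ℕ} (π : (ι → B) →ₗ[B] p) (hπ : Function.Surjective π)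
    [DecidableEq ι] (S : M →ₗ[A] Fin N → A) (y : A) (i : Fin N)
    (h : ∀ l, y * S (π (Pi.single l 1) : M) i ∈ B) {v : M} (hv : v ∈ p) : y * S v i ∈ B := by
  obtain ⟨f, hf⟩ := hπ ⟨v, hv⟩
  have e : v = ∑ l, ((f l : B) : A) • (π (Pi.single l 1) : M) := by
    conv_lhs => rw [show v = ((⟨v, hv⟩ : p) : M) from rfl, ← hf, pi_eq_sum_univ' f, map_sum]
    simp only [map_smul, Submodule.coe_sum, Submodule.coe_smul, Subalgebra.smul_def]
  rw [e, map_sum, Finset.sum_apply, Finset.mul_sum]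
  refine Subalgebra.sum_mem _ fun l _ => ?_
  rw [map_smul, Pi.smul_apply, smul_eq_mul, mul_left_comm]
  exact mul_mem (f l).2 (h l)

end Abstract

/-- The overlap module is the localisation of the first lattice, and is framed by it. -/
theorem exists_frame : ∃ (N : ℕ) (g : Fin N → T.M) (S : T.M →ₗ[C.A R] Fin N → C.A R),
    (∀ i, g i ∈ T.p) ∧ (∀ v, ∑ i, S v i • g i = v) ∧ ∀ v ∈ T.p, ∀ i, S v i ∈ C.Cp R :=
  have := T.inv_p
  exists_frame_aux (C.X₀_mul_Y₀ R) (C.X₀_mem_Cp R) (C.exists_pow_mul_mem_Cp R)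
    T.exists_pow_smul_mem_p

theorem invertible : Module.Invertible (C.A R) T.M := by
  have := T.inv_p
  obtain ⟨N, g, S, hg, hsum, hS⟩ := T.exists_frame
  exact invertible_aux hg hsum hS

theorem projective : Module.Projective R T.M := by
  obtain ⟨N, g, S, hg, hsum, hS⟩ := T.exists_frame
  refine Module.Projective.of_split (S.restrictScalars R)
    ((Fintype.linearCombination (C.A R) g).restrictScalars R) (LinearMap.ext fun v => ?_)
  exact hsum v

/-- An `R`-linear retraction onto the first lattice. -/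
theorem exists_retraction_p :
    ∃ ρ : T.M →ₗ[R] T.M, (∀ v, ρ v ∈ T.pR) ∧ ∀ v ∈ T.pR, ρ v = v := by
  obtain ⟨N, g, S, hg, hsum, hS⟩ := T.exists_frame
  obtain ⟨P, hP, hid⟩ := C.exists_projCp R
  refine ⟨∑ i, (LinearMap.toSpanSingleton (C.A R) T.M (g i)).restrictScalars R ∘ₗ P ∘ₗ
    (LinearMap.proj i ∘ₗ S).restrictScalars R, fun v => ?_, fun v hv => ?_⟩
  · simp only [LinearMap.coe_sum, Finset.sum_apply, LinearMap.comp_apply]
    exact Submodule.sum_mem _ fun i _ => T.smul_mem_p (hP _) (hg i)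
  · simp only [LinearMap.coe_sum, Finset.sum_apply, LinearMap.comp_apply,
      LinearMap.coe_restrictScalars, LinearMap.proj_apply, LinearMap.toSpanSingleton_apply]
    simp only [hid _ (hS v hv _)]
    exact hsum v

theorem projective_pR : Module.Projective R T.pR := by
  obtain ⟨ρ, hρ, hid⟩ := T.exists_retraction_p
  have := T.projective
  exact Module.Projective.of_split T.pR.subtype (ρ.codRestrict T.pR hρ)
    (LinearMap.ext fun v => Subtype.ext (hid v v.2))

theorem projective_mR : Module.Projective R T.mR := T.swap.projective_pR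

/-- A map killing the second lattice and fixing a multiple of the first. -/
theorem exists_sep : ∃ (c : ℕ) (τ : T.M →ₗ[R] T.M), (∀ v ∈ T.mR, τ v = 0) ∧
    (∀ v, ∃ w ∈ T.pR, τ v = C.X₀ R ^ c • w) ∧
      ∀ w ∈ T.pR, τ (C.X₀ R ^ c • w) = C.X₀ R ^ c • w := by
  classical
  obtain ⟨N, g, S, hg, hsum, hS⟩ := T.exists_frame
  obtain ⟨P, hP, hid, hzero⟩ := C.exists_sepCp R
  have := T.inv_m
  obtain ⟨M', π, hπ⟩ := Module.Finite.exists_fin' (C.Cm R) T.m
  let w : Fin M' → T.M := fun l => (π (Pi.single l 1) : T.M)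
  choose e he using fun il : Fin M' × Fin N => C.exists_pow_mul_mem_Cm R (S (w il.1) il.2)
  set c := ∑ il, e il
  have hc : ∀ l i, C.Y₀ R ^ c * S (w l) i ∈ C.Cm R := fun l i => by
    have hle : e (l, i) ≤ c := Finset.single_le_sum (fun _ _ => Nat.zero_le _) (Finset.mem_univ (l, i))
    rw [show c = (c - e (l, i)) + e (l, i) by omega, pow_add, mul_assoc]
    exact mul_mem (pow_mem (C.Y₀_mem_Cm R) _) (he (l, i))
  have hm : ∀ v ∈ T.m, ∀ i, C.Y₀ R ^ c * S v i ∈ C.Cm R := fun v hv i =>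
    mem_of_span_aux π hπ S _ i (fun l => hc l i) hv
  let τ : T.M →ₗ[R] T.M := ∑ i, (LinearMap.toSpanSingleton (C.A R) T.M (g i)).restrictScalars R ∘ₗ
    (LinearMap.mulLeft R (C.X₀ R ^ c)) ∘ₗ P ∘ₗ (LinearMap.mulLeft R (C.Y₀ R ^ c)) ∘ₗ
      (LinearMap.proj i ∘ₗ S).restrictScalars R
  have hτ : ∀ v, τ v = ∑ i, (C.X₀ R ^ c * P (C.Y₀ R ^ c * S v i)) • g i := fun v => by
    simp only [τ, LinearMap.coe_sum, Finset.sum_apply, LinearMap.comp_apply,
      LinearMap.coe_restrictScalars, LinearMap.proj_apply, LinearMap.toSpanSingleton_apply,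
      LinearMap.mulLeft_apply]
  refine ⟨c + 1, τ, fun v hv => ?_, fun v => ?_, fun v hv => ?_⟩
  · rw [hτ]
    exact Finset.sum_eq_zero fun i _ => by
      rw [hzero _ (hm v hv i), mul_zero]
      exact zero_smul (C.A R) (g i)
  · choose q hq hqe using fun i => hP (C.Y₀ R ^ c * S v i)
    refine ⟨∑ i, q i • g i, Submodule.sum_mem _ fun i _ => T.smul_mem_p (hq i) (hg i), ?_⟩
    rw [hτ, Finset.smul_sum]
    exact Finset.sum_congr rfl fun i _ => by rw [hqe, smul_smul, pow_succ, mul_assoc]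
  · rw [hτ]
    conv_rhs => rw [← hsum v, Finset.smul_sum]
    refine Finset.sum_congr rfl fun i _ => ?_
    have e : C.Y₀ R ^ c * S (C.X₀ R ^ (c + 1) • v) i = C.X₀ R * S v i := by
      rw [map_smul, Pi.smul_apply, smul_eq_mul, pow_succ, ← mul_assoc, ← mul_assoc,
        C.Y₀_pow_mul_X₀_pow, one_mul]
    rw [e, hid _ (hS v hv i), smul_smul, pow_succ, mul_assoc]

/-- The first lattice is a multiple of itself plus a finitely generated piece. -/
theorem exists_fg_sup (n : ℕ) : ∃ F : Submodule R T.M, F.FG ∧ F ≤ T.pR ∧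
    ∀ v ∈ T.pR, ∃ f ∈ F, ∃ w ∈ T.pR, v = f + C.X₀ R ^ n • w := by
  induction n with
  | zero => exact ⟨⊥, Submodule.fg_bot, bot_le, fun v hv => ⟨0, zero_mem _, v, hv, by simp⟩⟩
  | succ n ih =>
    obtain ⟨F, hF, hFp, hdec⟩ := ih
    obtain ⟨N, g, S, hg, hsum, hS⟩ := T.exists_frame
    obtain ⟨b, c, hb, -, -, hbc⟩ := C.exists_digitsCp R
    let G : Submodule R T.M := Submodule.span R
      (Set.range fun il : Fin N × Fin C.d => C.X₀ R ^ n • b il.2 • g il.1)
    refine ⟨F ⊔ G, hF.sup (Submodule.fg_span (Set.finite_range _)), sup_le hFp ?_, fun v hv => ?_⟩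
    · refine Submodule.span_le.mpr ?_
      rintro _ ⟨il, rfl⟩
      exact T.X_pow_smul_mem_p (T.smul_mem_p (hb _) (hg _))
    obtain ⟨f, hf, w, hw, rfl⟩ := hdec v hv
    choose q hq hqe using fun i => hbc _ (hS w hw i)
    refine ⟨f + ∑ i, ∑ l, c (S w i) l • C.X₀ R ^ n • b l • g i,
      Submodule.add_mem_sup hf (Submodule.sum_mem _ fun i _ => Submodule.sum_mem _ fun l _ =>
        Submodule.smul_mem _ _ (Submodule.subset_span ⟨(i, l), rfl⟩)),
      ∑ i, q i • g i, Submodule.sum_mem _ fun i _ => T.smul_mem_p (hq i) (hg i), ?_⟩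
    rw [add_assoc]
    congr 1
    conv_lhs => rw [← hsum w, Finset.smul_sum]
    rw [Finset.smul_sum, ← Finset.sum_add_distrib]
    refine Finset.sum_congr rfl fun i _ => ?_
    conv_lhs => rw [hqe i, add_smul, smul_add, Finset.sum_smul, Finset.smul_sum]
    congr 1
    · exact Finset.sum_congr rfl fun l _ => by rw [smul_assoc, smul_comm]
    · rw [smul_smul, smul_smul, ← mul_assoc, pow_succ]

end Triple

end Fermat.Agent.RelPic
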